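/-
GATE-Z (S15) / node (DEV) = GZ-DEV, file 2 (helper90): **VOCABULARY PIN — marked modules and the
two-degree Selmer complex** (helper96 4923 (Δ1), in the spelling proposed by helper79 5783 §2;
Mathlib only).

`G` a group, `D I : Subgroup G` (decomposition / inertia at the level `p`; FIXED parameters, so
that all modules of a dévissage share them), `W` an abelian group with `DistribMulAction G W`.

* `Marked D I W`   : `Wf : AddSubgroup W` (`D`-stable, fixed pointwise by `I`: "the finite part")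
                     and `X : AddSubgroup (G → W)` (the ADMISSIBLE global 1-cochains: unramified
                     off `{r, p}`, in `L` at `r`, level-constant … — an abstract subgroup containing
                     all coboundaries `dCob w`).
* `Z1 𝒲`           : triples `(x, y, λ)`, `x ∈ X` a cocycle on `G`, `y : D → W` a cocycle with values
                     in `Wf` vanishing on `I`, `x τ - y τ = τ • λ - λ` on `D`.
* `d0 𝒲`           : `(w, w') ↦ (dCob w, dCob w', w - w')`, `W × Wf →+ Z1 𝒲`.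
* `H1 𝒲 := Z1 𝒲 ⧸ range (d0 𝒲)`,  `H0 𝒲 := W^G ⊓ Wf` (`≃ ker (d0 𝒲)`).
-/
import Mathlib

set_option autoImplicit false

namespace Fermat.Agent.GZ.Dev

variable {G : Type*} [Group G]

section Cob

variable {W : Type*} [AddCommGroup W] [DistribMulAction G W]

/-- the 1-coboundary `σ ↦ σ • w - w`. -/
def dCob (G : Type*) [Group G] {W : Type*} [AddCommGroup W] [DistribMulAction G W] (w : W) :
    G → W := fun σ => σ • w - w

@[simp] theorem dCob_apply (w : W) (σ : G) : dCob G w σ = σ • w - w := rfl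

theorem dCob_add (w w' : W) : dCob G (w + w') = dCob G w + dCob G w' := by
  funext σ; simp only [dCob_apply, Pi.add_apply, smul_add]; abel

theorem dCob_zero : dCob G (0 : W) = 0 := by
  funext σ; simp

/-- the cocycle condition for a function on `G`. -/
def IsCocycle (x : G → W) : Prop := ∀ σ τ : G, x (σ * τ) = x σ + σ • x τ

/-- the cocycle condition for a function on a subgroup `H` of `G`. -/
def IsCocycleOn (H : Subgroup G) (y : H → W) : Prop :=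
  ∀ σ τ : H, y (σ * τ) = y σ + (σ : G) • y τ

theorem isCocycle_dCob (w : W) : IsCocycle (dCob G w) := by
  intro σ τ
  simp only [dCob_apply, mul_smul, smul_sub]
  abel

end Cob

/-- a **marking** of the `G`-module `W` (relative to the fixed subgroups `D`, `I` of `G`). -/
structure Marked (D I : Subgroup G) (W : Type*) [AddCommGroup W] [DistribMulAction G W] where
  /-- the "finite part" of `W` at the level. -/
  Wf : AddSubgroup W
  /-- `Wf` is stable under `D`. -/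
  smul_mem_Wf : ∀ τ ∈ D, ∀ w ∈ Wf, τ • w ∈ Wf
  /-- `I` fixes `Wf` pointwise. -/
  smul_eq_of_mem_I : ∀ τ ∈ I, ∀ w ∈ Wf, τ • w = w
  /-- the admissible global 1-cochains. -/
  X : AddSubgroup (G → W)
  /-- coboundaries are admissible. -/
  dCob_mem : ∀ w : W, dCob G w ∈ X

namespace Marked

variable {D I : Subgroup G} {W : Type*} [AddCommGroup W] [DistribMulAction G W]

/-- the 1-cocycles of the two-degree complex of `𝒲`: triples `(x, y, λ)`. -/
def Z1 (𝒲 : Marked D I W) : AddSubgroup ((G → W) × (D → W) × W) where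
  carrier := {z | z.1 ∈ 𝒲.X ∧ IsCocycle z.1 ∧ IsCocycleOn D z.2.1 ∧ (∀ τ : D, z.2.1 τ ∈ 𝒲.Wf) ∧
    (∀ τ : D, (τ : G) ∈ I → z.2.1 τ = 0) ∧ ∀ τ : D, z.1 τ - z.2.1 τ = (τ : G) • z.2.2 - z.2.2}
  zero_mem' := by
    refine ⟨𝒲.X.zero_mem, fun σ τ => ?_, fun σ τ => ?_, fun τ => 𝒲.Wf.zero_mem, fun τ _ => rfl,
      fun τ => ?_⟩ <;> simp
  add_mem' := by
    rintro a b ⟨ha1, ha2, ha3, ha4, ha5, ha6⟩ ⟨hb1, hb2, hb3, hb4, hb5, hb6⟩
    refine ⟨𝒲.X.add_mem ha1 hb1, fun σ τ => ?_, fun σ τ => ?_, fun τ => 𝒲.Wf.add_mem (ha4 τ) (hb4 τ),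
      fun τ hτ => ?_, fun τ => ?_⟩
    · simp only [Prod.fst_add, Pi.add_apply, ha2 σ τ, hb2 σ τ, smul_add]; abel
    · simp only [Prod.snd_add, Prod.fst_add, Pi.add_apply, ha3 σ τ, hb3 σ τ, smul_add]; abel
    · simp only [Prod.snd_add, Prod.fst_add, Pi.add_apply, ha5 τ hτ, hb5 τ hτ, add_zero]
    · have h1 := ha6 τ
      have h2 := hb6 τ
      simp only [Prod.snd_add, Prod.fst_add, Pi.add_apply, smul_add]
      calc a.1 τ + b.1 τ - (a.2.1 τ + b.2.1 τ)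
          = (a.1 τ - a.2.1 τ) + (b.1 τ - b.2.1 τ) := by abel
        _ = ((τ : G) • a.2.2 - a.2.2) + ((τ : G) • b.2.2 - b.2.2) := by rw [h1, h2]
        _ = (τ : G) • a.2.2 + (τ : G) • b.2.2 - (a.2.2 + b.2.2) := by abel
  neg_mem' := by
    rintro a ⟨ha1, ha2, ha3, ha4, ha5, ha6⟩
    refine ⟨𝒲.X.neg_mem ha1, fun σ τ => ?_, fun σ τ => ?_, fun τ => 𝒲.Wf.neg_mem (ha4 τ),
      fun τ hτ => ?_, fun τ => ?_⟩
    · simp only [Prod.fst_neg, Pi.neg_apply, ha2 σ τ, smul_neg]; abel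
    · simp only [Prod.snd_neg, Prod.fst_neg, Pi.neg_apply, ha3 σ τ, smul_neg]; abel
    · simp only [Prod.snd_neg, Prod.fst_neg, Pi.neg_apply, ha5 τ hτ, neg_zero]
    · have h1 := ha6 τ
      simp only [Prod.snd_neg, Prod.fst_neg, Pi.neg_apply, smul_neg]
      calc -a.1 τ - -a.2.1 τ = -(a.1 τ - a.2.1 τ) := by abel
        _ = -((τ : G) • a.2.2 - a.2.2) := by rw [h1]
        _ = -((τ : G) • a.2.2) - -a.2.2 := by abel

theorem mem_Z1 {𝒲 : Marked D I W} {z : (G → W) × (D → W) × W} :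
    z ∈ 𝒲.Z1 ↔ z.1 ∈ 𝒲.X ∧ IsCocycle z.1 ∧ IsCocycleOn D z.2.1 ∧ (∀ τ : D, z.2.1 τ ∈ 𝒲.Wf) ∧
      (∀ τ : D, (τ : G) ∈ I → z.2.1 τ = 0) ∧
        ∀ τ : D, z.1 τ - z.2.1 τ = (τ : G) • z.2.2 - z.2.2 := Iff.rfl

/-- the triple `(dCob w, dCob w' |_D, w - w')`. -/
def d0Fun (w : W) (w' : W) : (G → W) × (D → W) × W :=
  (dCob G w, fun τ : D => (τ : G) • w' - w', w - w')

theorem d0Fun_mem (𝒲 : Marked D I W) (w : W) {w' : W} (hw' : w' ∈ 𝒲.Wf) :
    d0Fun (D := D) w w' ∈ 𝒲.Z1 := by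
  refine ⟨𝒲.dCob_mem w, isCocycle_dCob w, fun σ τ => ?_, fun τ => ?_, fun τ hτ => ?_, fun τ => ?_⟩
  · simp only [d0Fun, Subgroup.coe_mul, mul_smul, smul_sub]; abel
  · exact 𝒲.Wf.sub_mem (𝒲.smul_mem_Wf τ τ.2 w' hw') hw'
  · simp only [d0Fun, 𝒲.smul_eq_of_mem_I τ hτ w' hw', sub_self]
  · simp only [d0Fun, dCob_apply, smul_sub]; abel

/-- the differential `d⁰ : W × Wf →+ Z¹`. -/
def d0 (𝒲 : Marked D I W) : W × 𝒲.Wf →+ 𝒲.Z1 where
  toFun a := ⟨d0Fun a.1 (a.2 : W), d0Fun_mem 𝒲 a.1 a.2.2⟩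
  map_zero' := by
    apply Subtype.ext
    simp only [d0Fun, Prod.fst_zero, Prod.snd_zero, AddSubgroup.coe_zero, smul_zero, sub_self,
      dCob_zero]
    rfl
  map_add' a b := by
    apply Subtype.ext
    simp only [d0Fun, Prod.fst_add, Prod.snd_add, AddSubgroup.coe_add, dCob_add, smul_add,
      Prod.mk_add_mk]
    refine Prod.ext rfl (Prod.ext ?_ ?_)
    · funext τ; simp only [Pi.add_apply]; abel
    · simp only; abel

@[simp] theorem d0_apply_coe (𝒲 : Marked D I W) (a : W × 𝒲.Wf) :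
    ((𝒲.d0 a : 𝒲.Z1) : (G → W) × (D → W) × W) = d0Fun a.1 (a.2 : W) := rfl

/-- the 1-coboundaries. -/
def B1 (𝒲 : Marked D I W) : AddSubgroup 𝒲.Z1 := 𝒲.d0.range

/-- **`H~¹` of the marked module.** -/
abbrev H1 (𝒲 : Marked D I W) : Type _ := 𝒲.Z1 ⧸ 𝒲.d0.range

/-- **`H~⁰ = W^G ⊓ Wf`.** -/
def H0 (𝒲 : Marked D I W) : AddSubgroup W where
  carrier := {w | w ∈ 𝒲.Wf ∧ ∀ σ : G, σ • w = w}
  zero_mem' := ⟨𝒲.Wf.zero_mem, fun σ => smul_zero σ⟩
  add_mem' := by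
    rintro a b ⟨ha, ha'⟩ ⟨hb, hb'⟩
    exact ⟨𝒲.Wf.add_mem ha hb, fun σ => by rw [smul_add, ha' σ, hb' σ]⟩
  neg_mem' := by
    rintro a ⟨ha, ha'⟩
    exact ⟨𝒲.Wf.neg_mem ha, fun σ => by rw [smul_neg, ha' σ]⟩

theorem mem_H0 {𝒲 : Marked D I W} {w : W} : w ∈ 𝒲.H0 ↔ w ∈ 𝒲.Wf ∧ ∀ σ : G, σ • w = w := Iff.rfl

/-- `ker d⁰` consists of the pairs `(w, w)` with `w ∈ H~⁰`. -/
theorem mem_ker_d0 {𝒲 : Marked D I W} {a : W × 𝒲.Wf} :
    a ∈ 𝒲.d0.ker ↔ a.1 = (a.2 : W) ∧ (a.2 : W) ∈ 𝒲.H0 := by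
  rw [AddMonoidHom.mem_ker]
  constructor
  · intro h
    have h' := congrArg (fun z : 𝒲.Z1 => (z : (G → W) × (D → W) × W)) h
    simp only [d0_apply_coe, d0Fun, AddSubgroup.coe_zero] at h'
    have h1 : dCob G a.1 = 0 := congrArg Prod.fst h'
    have h3 : a.1 - (a.2 : W) = 0 := congrArg (fun z => z.2.2) h'
    have hEq : a.1 = (a.2 : W) := sub_eq_zero.mp h3
    refine ⟨hEq, a.2.2, fun σ => ?_⟩
    have := congrFun h1 σ
    rw [dCob_apply, Pi.zero_apply, sub_eq_zero] at this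
    rw [← hEq]; exact this
  · rintro ⟨hEq, -, hfix⟩
    apply Subtype.ext
    simp only [d0_apply_coe, d0Fun, AddSubgroup.coe_zero]
    refine Prod.ext ?_ (Prod.ext ?_ ?_)
    · funext σ
      simp only [dCob_apply, Prod.fst_zero, Pi.zero_apply]
      rw [hEq, hfix σ, sub_self]
    · funext τ
      simp only [Prod.snd_zero, Prod.fst_zero, Pi.zero_apply]
      rw [hfix τ, sub_self]
    · simp only [Prod.snd_zero]
      rw [hEq, sub_self]

/-- `ker d⁰ ≃ H~⁰`. -/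
def kerD0Equiv (𝒲 : Marked D I W) : 𝒲.d0.ker ≃ 𝒲.H0 where
  toFun a := ⟨((a : W × 𝒲.Wf).2 : W), (mem_ker_d0.mp a.2).2⟩
  invFun w := ⟨((w : W), ⟨(w : W), w.2.1⟩), mem_ker_d0.mpr ⟨rfl, w.2⟩⟩
  left_inv a := by
    apply Subtype.ext
    refine Prod.ext ?_ rfl
    exact (mem_ker_d0.mp a.2).1.symm
  right_inv w := rfl

theorem card_ker_d0 (𝒲 : Marked D I W) : Nat.card 𝒲.d0.ker = Nat.card 𝒲.H0 :=
  Nat.card_congr 𝒲.kerD0Equiv

end Marked

end Fermat.Agent.GZ.Dev
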