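/-
GATE-Z (S15) / node (DEV) = GZ-DEV, file 1 (helper90): **the two-degree counting lemma**
(Mathlib only).

Three two-term complexes of abelian groups `dA : A0 → A1`, `dB : B0 → B1`, `dC : C0 → C1`
(`X1` plays the role of the group of 1-COCYCLES, so `H¹ X = X1 / im d`, `H⁰ X = ker d`) and maps
`A → B → C` with

* `i0`, `i1` injective, `ker p0 = im i0`, `ker p1 = im i1` (left exactness in degrees 0 and 1),
* `p0` surjective (NO surjectivity in degree 1, no `H²`).

If the degree-0 groups are finite and `H¹ A`, `H¹ C` are finite then `H¹ B` is finite and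

  `#H¹B · #H⁰A · #H⁰C ≤ #H¹A · #H¹C · #H⁰B`

i.e. `h¹ - h⁰` is SUB-ADDITIVE.  (With everything finite this is a plain Euler-characteristic
count: `#H¹X · #X0 = #X1 · #H⁰X`, `#B0 = #A0 · #C0`, `#B1 ≤ #A1 · #C1`; no connecting map.)
-/
import Mathlib

set_option autoImplicit false

namespace Fermat.Agent.GZ.Dev

section OneComplex

variable {X0 X1 : Type*} [AddCommGroup X0] [AddCommGroup X1] (d : X0 →+ X1)

/-- if `X0` and `X1 / im d` are finite then `X1` is finite. -/
theorem finite_of_finite_quotient_range [Finite X0] [Finite (X1 ⧸ d.range)] : Finite X1 := by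
  haveI : Finite d.range := Finite.of_surjective d.rangeRestrict d.rangeRestrict_surjective
  exact (AddSubgroup.finite_iff_finite_and_finiteIndex (H := d.range)).mpr
    ⟨inferInstance, AddSubgroup.finiteIndex_of_finite_quotient⟩

/-- Euler characteristic of a finite two-term complex: `#H¹ · #X0 = #X1 · #H⁰`. -/
theorem card_H1_mul_card (_hfin : Finite X0) :
    Nat.card (X1 ⧸ d.range) * Nat.card X0 = Nat.card X1 * Nat.card d.ker := by
  have h1 : Nat.card d.range * d.range.index = Nat.card X1 := d.range.card_mul_index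
  have h2 : Nat.card d.ker * d.ker.index = Nat.card X0 := d.ker.card_mul_index
  have h3 : d.ker.index = Nat.card d.range := AddSubgroup.index_ker d
  rw [AddSubgroup.index_eq_card] at h1
  rw [← h1, ← h2, h3]
  ring

end OneComplex

section ThreeComplexes

variable {A0 A1 B0 B1 C0 C1 : Type*}
  [AddCommGroup A0] [AddCommGroup A1] [AddCommGroup B0] [AddCommGroup B1]
  [AddCommGroup C0] [AddCommGroup C1]
  (dA : A0 →+ A1) (dB : B0 →+ B1) (dC : C0 →+ C1)
  (i0 : A0 →+ B0) (i1 : A1 →+ B1) (p0 : B0 →+ C0) (p1 : B1 →+ C1)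

/-- **the two-degree counting lemma.** -/
theorem twoDeg_card_le
    (hi0 : Function.Injective i0) (hi1 : Function.Injective i1)
    (hp0 : Function.Surjective p0)
    (hex0 : ∀ b, p0 b = 0 ↔ b ∈ Set.range i0) (hex1 : ∀ b, p1 b = 0 ↔ b ∈ Set.range i1)
    [Finite A0] [Finite B0] [Finite C0]
    [Finite (A1 ⧸ dA.range)] [Finite (C1 ⧸ dC.range)] :
    Finite (B1 ⧸ dB.range) ∧
      Nat.card (B1 ⧸ dB.range) * Nat.card dA.ker * Nat.card dC.ker ≤
        Nat.card (A1 ⧸ dA.range) * Nat.card (C1 ⧸ dC.range) * Nat.card dB.ker := by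
  haveI hA1 : Finite A1 := finite_of_finite_quotient_range dA
  haveI hC1 : Finite C1 := finite_of_finite_quotient_range dC
  -- `B1` is finite
  have hker1 : p1.ker = i1.range := by
    ext b; rw [AddMonoidHom.mem_ker, hex1 b]; rfl
  have hker0 : p0.ker = i0.range := by
    ext b; rw [AddMonoidHom.mem_ker, hex0 b]; rfl
  haveI : Finite p1.ker := by
    rw [hker1]; exact Finite.of_surjective i1.rangeRestrict i1.rangeRestrict_surjective
  haveI : Finite p1.range := Finite.of_injective (fun x : p1.range => (x : C1)) Subtype.val_injective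
  haveI hB1 : Finite B1 := (AddMonoidHom.finite_iff_finite_ker_range p1).mpr ⟨inferInstance, inferInstance⟩
  refine ⟨inferInstance, ?_⟩
  -- cardinalities
  have eA := card_H1_mul_card dA inferInstance
  have eB := card_H1_mul_card dB inferInstance
  have eC := card_H1_mul_card dC inferInstance
  -- `#B0 = #A0 * #C0`
  have hB0 : Nat.card B0 = Nat.card A0 * Nat.card C0 := by
    have h1 : Nat.card p0.ker * p0.ker.index = Nat.card B0 := p0.ker.card_mul_index
    have h2 : p0.ker.index = Nat.card p0.range := AddSubgroup.index_ker p0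
    have h3 : Nat.card p0.range = Nat.card C0 := by
      rw [AddMonoidHom.range_eq_top.mpr hp0]
      exact Nat.card_congr (AddSubgroup.topEquiv (G := C0)).toEquiv
    have h4 : Nat.card p0.ker = Nat.card A0 := by
      rw [hker0]
      exact (Nat.card_congr (AddMonoidHom.ofInjective hi0).toEquiv).symm
    rw [← h1, h2, h3, h4]
  -- `#B1 ≤ #A1 * #C1`
  have hB1le : Nat.card B1 ≤ Nat.card A1 * Nat.card C1 := by
    have h1 : Nat.card p1.ker * p1.ker.index = Nat.card B1 := p1.ker.card_mul_index
    have h2 : p1.ker.index = Nat.card p1.range := AddSubgroup.index_ker p1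
    have h3 : Nat.card p1.range ≤ Nat.card C1 :=
      Nat.card_le_card_of_injective (fun x : p1.range => (x : C1)) Subtype.val_injective
    have h4 : Nat.card p1.ker = Nat.card A1 := by
      rw [hker1]
      exact (Nat.card_congr (AddMonoidHom.ofInjective hi1).toEquiv).symm
    rw [← h1, h2, h4]
    exact Nat.mul_le_mul_left _ h3
  -- positivity
  have pA0 : 0 < Nat.card A0 := Nat.card_pos
  have pC0 : 0 < Nat.card C0 := Nat.card_pos
  have pB0 : 0 < Nat.card B0 := Nat.card_pos
  -- multiply the target by `#A0 * #C0 = #B0` and compare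
  have key : (Nat.card (B1 ⧸ dB.range) * Nat.card dA.ker * Nat.card dC.ker) * Nat.card B0 ≤
      (Nat.card (A1 ⧸ dA.range) * Nat.card (C1 ⧸ dC.range) * Nat.card dB.ker) * Nat.card B0 := by
    calc (Nat.card (B1 ⧸ dB.range) * Nat.card dA.ker * Nat.card dC.ker) * Nat.card B0
        = (Nat.card (B1 ⧸ dB.range) * Nat.card B0) * (Nat.card dA.ker * Nat.card dC.ker) := by ring
      _ = (Nat.card B1 * Nat.card dB.ker) * (Nat.card dA.ker * Nat.card dC.ker) := by rw [eB]
      _ ≤ (Nat.card A1 * Nat.card C1 * Nat.card dB.ker) *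
            (Nat.card dA.ker * Nat.card dC.ker) := by
          apply Nat.mul_le_mul_right
          exact Nat.mul_le_mul_right _ hB1le
      _ = (Nat.card A1 * Nat.card dA.ker) * (Nat.card C1 * Nat.card dC.ker) *
            Nat.card dB.ker := by ring
      _ = (Nat.card (A1 ⧸ dA.range) * Nat.card A0) * (Nat.card (C1 ⧸ dC.range) * Nat.card C0) *
            Nat.card dB.ker := by rw [eA, eC]
      _ = (Nat.card (A1 ⧸ dA.range) * Nat.card (C1 ⧸ dC.range) * Nat.card dB.ker) *
            Nat.card B0 := by rw [hB0]; ring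
  exact Nat.le_of_mul_le_mul_right key pB0

end ThreeComplexes

end Fermat.Agent.GZ.Dev
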