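/-
GATE-Z (S15) / node (DEV) = GZ-DEV, file 3 (helper90): **sub-additivity of `h~¹ - h~⁰` along short
exact sequences of marked modules** (helper96 4923 (Δ1); Mathlib only), in cardinality form (all
`k`: no `𝔽_r`-dimensions).

* `MarkedHom 𝒲 𝒲'`   : a `G`-equivariant additive map respecting `Wf` and `X`; `Z1map`, `map0`.
* `MarkedSES 𝒲' 𝒲 𝒲''`: `0 → W' → W → W'' → 0` exact, `G`-equivariant, with the PROPAGATED markings
  `Wf' = ι⁻¹ Wf`, `Wf'' = π(Wf)`, `X' = {x' | ι ∘ x' ∈ X}` (preimage), `X'' ⊇ π ∘ X`.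
* `MarkedSES.card_le`  : `[Finite W] [Finite (H1 𝒲')] [Finite (H1 𝒲'')]` ⟹ `Finite (H1 𝒲)` and
  `#H1 𝒲 * #H0 𝒲' * #H0 𝒲'' ≤ #H1 𝒲' * #H1 𝒲'' * #H0 𝒲`.
* `chi 𝒲 : ℚ := #H1 𝒲 / #H0 𝒲`, `MarkedSES.chi_le : chi 𝒲 ≤ chi 𝒲' * chi 𝒲''`.
* `Marked.card_H1_le_of_X_le` : monotonicity in `X` (same `Wf`): `H1 𝒲 ↪ H1 𝒲̃`.
-/
import Mathlib
import Fermat.Agent.GZ.Dev.TwoDeg
import Fermat.Agent.GZ.Dev.Marked

set_option autoImplicit false

namespace Fermat.Agent.GZ.Dev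

variable {G : Type*} [Group G] {D I : Subgroup G}

/-- a morphism of marked modules. -/
structure MarkedHom {W W' : Type*} [AddCommGroup W] [DistribMulAction G W]
    [AddCommGroup W'] [DistribMulAction G W'] (𝒲 : Marked D I W) (𝒲' : Marked D I W') where
  /-- the underlying additive map. -/
  f : W →+ W'
  /-- `G`-equivariance. -/
  f_smul : ∀ (σ : G) (w : W), f (σ • w) = σ • f w
  /-- the finite parts are respected. -/
  map_Wf : ∀ w ∈ 𝒲.Wf, f w ∈ 𝒲'.Wf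
  /-- admissible cochains are respected. -/
  map_X : ∀ x ∈ 𝒲.X, (fun σ => f (x σ)) ∈ 𝒲'.X

namespace MarkedHom

variable {W W' : Type*} [AddCommGroup W] [DistribMulAction G W]
  [AddCommGroup W'] [DistribMulAction G W'] {𝒲 : Marked D I W} {𝒲' : Marked D I W'}

/-- the map on triples. -/
def tripleFun (φ : MarkedHom 𝒲 𝒲') (z : (G → W) × (D → W) × W) : (G → W') × (D → W') × W' :=
  (fun σ => φ.f (z.1 σ), fun τ => φ.f (z.2.1 τ), φ.f z.2.2)

theorem tripleFun_mem (φ : MarkedHom 𝒲 𝒲') {z : (G → W) × (D → W) × W} (hz : z ∈ 𝒲.Z1) :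
    φ.tripleFun z ∈ 𝒲'.Z1 := by
  obtain ⟨h1, h2, h3, h4, h5, h6⟩ := hz
  refine ⟨φ.map_X _ h1, fun σ τ => ?_, fun σ τ => ?_, fun τ => φ.map_Wf _ (h4 τ),
    fun τ hτ => ?_, fun τ => ?_⟩
  · simp only [tripleFun, h2 σ τ, map_add, φ.f_smul]
  · simp only [tripleFun, h3 σ τ, map_add, φ.f_smul]
  · simp only [tripleFun, h5 τ hτ, map_zero]
  · have := congrArg φ.f (h6 τ)
    simp only [map_sub, φ.f_smul] at this
    simpa only [tripleFun] using this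

/-- the induced map on `Z¹`. -/
def Z1map (φ : MarkedHom 𝒲 𝒲') : 𝒲.Z1 →+ 𝒲'.Z1 where
  toFun z := ⟨φ.tripleFun z, φ.tripleFun_mem z.2⟩
  map_zero' := by
    apply Subtype.ext
    refine Prod.ext ?_ (Prod.ext ?_ ?_)
    · funext σ; simp [tripleFun]
    · funext τ; simp [tripleFun]
    · simp [tripleFun]
  map_add' a b := by
    apply Subtype.ext
    refine Prod.ext ?_ (Prod.ext ?_ ?_)
    · funext σ; simp [tripleFun]
    · funext τ; simp [tripleFun]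
    · simp [tripleFun]

@[simp] theorem Z1map_coe (φ : MarkedHom 𝒲 𝒲') (z : 𝒲.Z1) :
    ((φ.Z1map z : 𝒲'.Z1) : (G → W') × (D → W') × W') = φ.tripleFun z := rfl

/-- the induced map in degree `0`. -/
def map0 (φ : MarkedHom 𝒲 𝒲') : W × 𝒲.Wf →+ W' × 𝒲'.Wf where
  toFun a := (φ.f a.1, ⟨φ.f (a.2 : W), φ.map_Wf _ a.2.2⟩)
  map_zero' := by
    refine Prod.ext ?_ (Subtype.ext ?_) <;> simp
  map_add' a b := by
    refine Prod.ext ?_ (Subtype.ext ?_) <;> simp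

@[simp] theorem map0_fst (φ : MarkedHom 𝒲 𝒲') (a : W × 𝒲.Wf) : (φ.map0 a).1 = φ.f a.1 := rfl

@[simp] theorem map0_snd_coe (φ : MarkedHom 𝒲 𝒲') (a : W × 𝒲.Wf) :
    ((φ.map0 a).2 : W') = φ.f (a.2 : W) := rfl

end MarkedHom

/-- a **short exact sequence of marked modules** with propagated markings. -/
structure MarkedSES {W' W W'' : Type*} [AddCommGroup W'] [DistribMulAction G W']
    [AddCommGroup W] [DistribMulAction G W] [AddCommGroup W''] [DistribMulAction G W'']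
    (𝒲' : Marked D I W') (𝒲 : Marked D I W) (𝒲'' : Marked D I W'') where
  /-- the inclusion. -/
  ι : W' →+ W
  /-- the projection. -/
  π : W →+ W''
  ι_smul : ∀ (σ : G) (w : W'), ι (σ • w) = σ • ι w
  π_smul : ∀ (σ : G) (w : W), π (σ • w) = σ • π w
  ι_injective : Function.Injective ι
  π_surjective : Function.Surjective π
  exact : ∀ w : W, π w = 0 ↔ w ∈ Set.range ι
  /-- `Wf' = ι⁻¹ Wf`. -/
  mem_Wf' : ∀ w' : W', w' ∈ 𝒲'.Wf ↔ ι w' ∈ 𝒲.Wf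
  /-- `Wf'' = π (Wf)`. -/
  mem_Wf'' : ∀ w'' : W'', w'' ∈ 𝒲''.Wf ↔ ∃ w ∈ 𝒲.Wf, π w = w''
  /-- `X'` is the PREIMAGE of `X`. -/
  mem_X' : ∀ x' : G → W', x' ∈ 𝒲'.X ↔ (fun σ => ι (x' σ)) ∈ 𝒲.X
  /-- `X''` contains the image of `X`. -/
  map_X'' : ∀ x ∈ 𝒲.X, (fun σ => π (x σ)) ∈ 𝒲''.X

namespace MarkedSES

variable {W' W W'' : Type*} [AddCommGroup W'] [DistribMulAction G W']
  [AddCommGroup W] [DistribMulAction G W] [AddCommGroup W''] [DistribMulAction G W'']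
  {𝒲' : Marked D I W'} {𝒲 : Marked D I W} {𝒲'' : Marked D I W''}

/-- the inclusion as a morphism of marked modules. -/
def homι (S : MarkedSES 𝒲' 𝒲 𝒲'') : MarkedHom 𝒲' 𝒲 where
  f := S.ι
  f_smul := S.ι_smul
  map_Wf w hw := (S.mem_Wf' w).mp hw
  map_X x hx := (S.mem_X' x).mp hx

/-- the projection as a morphism of marked modules. -/
def homπ (S : MarkedSES 𝒲' 𝒲 𝒲'') : MarkedHom 𝒲 𝒲'' where
  f := S.π
  f_smul := S.π_smul
  map_Wf w hw := (S.mem_Wf'' _).mpr ⟨w, hw, rfl⟩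
  map_X := S.map_X''

theorem π_ι (S : MarkedSES 𝒲' 𝒲 𝒲'') (w' : W') : S.π (S.ι w') = 0 :=
  (S.exact _).mpr ⟨w', rfl⟩

theorem injective_map0 (S : MarkedSES 𝒲' 𝒲 𝒲'') : Function.Injective S.homι.map0 := by
  intro a b h
  have h1 : S.ι a.1 = S.ι b.1 := congrArg Prod.fst h
  have h2 : S.ι (a.2 : W') = S.ι (b.2 : W') := congrArg (fun z => ((z.2 : 𝒲.Wf) : W)) h
  exact Prod.ext (S.ι_injective h1) (Subtype.ext (S.ι_injective h2))

theorem injective_Z1map (S : MarkedSES 𝒲' 𝒲 𝒲'') : Function.Injective S.homι.Z1map := by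
  intro a b h
  have h' := congrArg (fun z : 𝒲.Z1 => (z : (G → W) × (D → W) × W)) h
  simp only [MarkedHom.Z1map_coe, MarkedHom.tripleFun] at h'
  apply Subtype.ext
  refine Prod.ext ?_ (Prod.ext ?_ ?_)
  · funext σ
    exact S.ι_injective (congrFun (congrArg Prod.fst h') σ)
  · funext τ
    exact S.ι_injective (congrFun (congrArg (fun z => z.2.1) h') τ)
  · exact S.ι_injective (congrArg (fun z => z.2.2) h')

theorem surjective_map0 (S : MarkedSES 𝒲' 𝒲 𝒲'') : Function.Surjective S.homπ.map0 := by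
  rintro ⟨w'', ⟨wf'', hwf''⟩⟩
  obtain ⟨w, hw⟩ := S.π_surjective w''
  obtain ⟨wf, hwf, hwf'⟩ := (S.mem_Wf'' wf'').mp hwf''
  refine ⟨(w, ⟨wf, hwf⟩), Prod.ext hw (Subtype.ext hwf')⟩

theorem exact_map0 (S : MarkedSES 𝒲' 𝒲 𝒲'') (b : W × 𝒲.Wf) :
    S.homπ.map0 b = 0 ↔ b ∈ Set.range S.homι.map0 := by
  constructor
  · intro h
    have h1 : S.π b.1 = 0 := congrArg Prod.fst h
    have h2 : S.π (b.2 : W) = 0 := congrArg (fun z => ((z.2 : 𝒲''.Wf) : W'')) h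
    obtain ⟨w', hw'⟩ := (S.exact _).mp h1
    obtain ⟨wf', hwf'⟩ := (S.exact _).mp h2
    have hmem : wf' ∈ 𝒲'.Wf := (S.mem_Wf' wf').mpr (by rw [hwf']; exact b.2.2)
    exact ⟨(w', ⟨wf', hmem⟩), Prod.ext hw' (Subtype.ext hwf')⟩
  · rintro ⟨a, rfl⟩
    refine Prod.ext ?_ (Subtype.ext ?_)
    · exact S.π_ι a.1
    · exact S.π_ι (a.2 : W')

theorem exact_Z1map (S : MarkedSES 𝒲' 𝒲 𝒲'') (z : 𝒲.Z1) :
    S.homπ.Z1map z = 0 ↔ z ∈ Set.range S.homι.Z1map := by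
  constructor
  · intro h
    have h' := congrArg (fun z : 𝒲''.Z1 => (z : (G → W'') × (D → W'') × W'')) h
    simp only [MarkedHom.Z1map_coe, MarkedHom.tripleFun, AddSubgroup.coe_zero] at h'
    have hx : ∀ σ, S.π ((z : (G → W) × (D → W) × W).1 σ) = 0 :=
      fun σ => congrFun (congrArg Prod.fst h') σ
    have hy : ∀ τ, S.π ((z : (G → W) × (D → W) × W).2.1 τ) = 0 :=
      fun τ => congrFun (congrArg (fun z => z.2.1) h') τ
    have hl : S.π (z : (G → W) × (D → W) × W).2.2 = 0 := congrArg (fun z => z.2.2) h'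
    choose x' hx' using fun σ => (S.exact _).mp (hx σ)
    choose y' hy' using fun τ => (S.exact _).mp (hy τ)
    obtain ⟨l', hl'⟩ := (S.exact _).mp hl
    obtain ⟨h1, h2, h3, h4, h5, h6⟩ := z.2
    have hmem : ((x', y', l') : (G → W') × (D → W') × W') ∈ 𝒲'.Z1 := by
      refine ⟨(S.mem_X' x').mpr ?_, fun σ τ => ?_, fun σ τ => ?_, fun τ => ?_, fun τ hτ => ?_,
        fun τ => ?_⟩
      · have : (fun σ => S.ι (x' σ)) = (z : (G → W) × (D → W) × W).1 := funext hx'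
        rw [this]; exact h1
      · apply S.ι_injective
        simp only [map_add, S.ι_smul, hx']
        exact h2 σ τ
      · apply S.ι_injective
        simp only [map_add, S.ι_smul, hy']
        exact h3 σ τ
      · refine (S.mem_Wf' _).mpr ?_
        simp only [hy']; exact h4 τ
      · apply S.ι_injective
        simp only [hy', map_zero]
        exact h5 τ hτ
      · apply S.ι_injective
        simp only [map_sub, S.ι_smul, hx', hy', hl']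
        exact h6 τ
    refine ⟨⟨(x', y', l'), hmem⟩, ?_⟩
    apply Subtype.ext
    simp only [MarkedHom.Z1map_coe, MarkedHom.tripleFun]
    refine Prod.ext ?_ (Prod.ext ?_ ?_)
    · funext σ; exact hx' σ
    · funext τ; exact hy' τ
    · exact hl'
  · rintro ⟨a, rfl⟩
    apply Subtype.ext
    simp only [MarkedHom.Z1map_coe, MarkedHom.tripleFun, AddSubgroup.coe_zero]
    refine Prod.ext ?_ (Prod.ext ?_ ?_)
    · funext σ; exact S.π_ι _
    · funext τ; exact S.π_ι _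
    · exact S.π_ι _

/-- **sub-additivity of `h~¹ - h~⁰`** (cardinality form). -/
theorem card_le (S : MarkedSES 𝒲' 𝒲 𝒲'') [Finite W] [Finite 𝒲'.H1] [Finite 𝒲''.H1] :
    Finite 𝒲.H1 ∧
      Nat.card 𝒲.H1 * Nat.card 𝒲'.H0 * Nat.card 𝒲''.H0 ≤
        Nat.card 𝒲'.H1 * Nat.card 𝒲''.H1 * Nat.card 𝒲.H0 := by
  haveI : Finite W' := Finite.of_injective S.ι S.ι_injective
  haveI : Finite W'' := Finite.of_surjective S.π S.π_surjective
  have h := twoDeg_card_le 𝒲'.d0 𝒲.d0 𝒲''.d0 S.homι.map0 S.homι.Z1map S.homπ.map0 S.homπ.Z1map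
    S.injective_map0 S.injective_Z1map S.surjective_map0 S.exact_map0 S.exact_Z1map
  rw [𝒲'.card_ker_d0, 𝒲.card_ker_d0, 𝒲''.card_ker_d0] at h
  exact h

end MarkedSES

/-! ### the ratio `χ = #H~¹ / #H~⁰` -/

section Chi

variable {W' W W'' : Type*} [AddCommGroup W'] [DistribMulAction G W']
  [AddCommGroup W] [DistribMulAction G W] [AddCommGroup W''] [DistribMulAction G W'']

/-- `χ(𝒲) = #H~¹(𝒲) / #H~⁰(𝒲)` (a rational number; `r^{h~¹ - h~⁰}` for `r`-groups). -/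
noncomputable def chi (𝒲 : Marked D I W) : ℚ := (Nat.card 𝒲.H1 : ℚ) / (Nat.card 𝒲.H0 : ℚ)

theorem card_H0_pos [Finite W] (𝒲 : Marked D I W) : 0 < Nat.card 𝒲.H0 := Nat.card_pos

theorem chi_nonneg (𝒲 : Marked D I W) : 0 ≤ chi 𝒲 :=
  div_nonneg (Nat.cast_nonneg _) (Nat.cast_nonneg _)

/-- `χ(𝒲) ≤ χ(𝒲') · χ(𝒲'')`. -/
theorem MarkedSES.chi_le {𝒲' : Marked D I W'} {𝒲 : Marked D I W} {𝒲'' : Marked D I W''}
    (S : MarkedSES 𝒲' 𝒲 𝒲'') [Finite W] [Finite 𝒲'.H1] [Finite 𝒲''.H1] :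
    chi 𝒲 ≤ chi 𝒲' * chi 𝒲'' := by
  haveI : Finite W' := Finite.of_injective S.ι S.ι_injective
  haveI : Finite W'' := Finite.of_surjective S.π S.π_surjective
  obtain ⟨_, h⟩ := S.card_le
  have p' : (0 : ℚ) < Nat.card 𝒲'.H0 := by exact_mod_cast card_H0_pos 𝒲'
  have p : (0 : ℚ) < Nat.card 𝒲.H0 := by exact_mod_cast card_H0_pos 𝒲
  have p'' : (0 : ℚ) < Nat.card 𝒲''.H0 := by exact_mod_cast card_H0_pos 𝒲''
  have hq : (Nat.card 𝒲.H1 : ℚ) * Nat.card 𝒲'.H0 * Nat.card 𝒲''.H0 ≤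
      (Nat.card 𝒲'.H1 : ℚ) * Nat.card 𝒲''.H1 * Nat.card 𝒲.H0 := by exact_mod_cast h
  unfold chi
  rw [div_mul_div_comm, div_le_div_iff₀ p (mul_pos p' p'')]
  calc (Nat.card 𝒲.H1 : ℚ) * ((Nat.card 𝒲'.H0 : ℚ) * Nat.card 𝒲''.H0)
      = (Nat.card 𝒲.H1 : ℚ) * Nat.card 𝒲'.H0 * Nat.card 𝒲''.H0 := by ring
    _ ≤ (Nat.card 𝒲'.H1 : ℚ) * Nat.card 𝒲''.H1 * Nat.card 𝒲.H0 := hq

/-- the inductive step of a dévissage: bounds on the two ends give a bound in the middle. -/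
theorem MarkedSES.chi_le_of_le {𝒲' : Marked D I W'} {𝒲 : Marked D I W} {𝒲'' : Marked D I W''}
    (S : MarkedSES 𝒲' 𝒲 𝒲'') [Finite W] [Finite 𝒲'.H1] [Finite 𝒲''.H1] {c' c'' : ℚ}
    (h' : chi 𝒲' ≤ c') (h'' : chi 𝒲'' ≤ c'') : Finite 𝒲.H1 ∧ chi 𝒲 ≤ c' * c'' :=
  ⟨S.card_le.1, le_trans S.chi_le
    (mul_le_mul h' h'' (chi_nonneg _) (le_trans (chi_nonneg _) h'))⟩

end Chi

/-! ### monotonicity in the admissible cochains -/

section Mono

variable {W : Type*} [AddCommGroup W] [DistribMulAction G W]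

/-- enlarging `X` (same `Wf`) enlarges `H~¹`: `H1 𝒲 ↪ H1 𝒲̃`. -/
theorem Marked.card_H1_le_of_X_le (𝒲 𝒲t : Marked D I W) (hWf : 𝒲.Wf = 𝒲t.Wf)
    (hX : 𝒲.X ≤ 𝒲t.X) [Finite 𝒲t.H1] :
    Finite 𝒲.H1 ∧ Nat.card 𝒲.H1 ≤ Nat.card 𝒲t.H1 := by
  let φ : MarkedHom 𝒲 𝒲t :=
    { f := AddMonoidHom.id W
      f_smul := fun σ w => rfl
      map_Wf := fun w hw => by rw [← hWf]; exact hw
      map_X := fun x hx => hX hx }
  have hle : 𝒲.d0.range ≤ (𝒲t.d0.range).comap φ.Z1map := by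
    rintro z ⟨a, rfl⟩
    refine ⟨(a.1, ⟨(a.2 : W), by rw [← hWf]; exact a.2.2⟩), ?_⟩
    apply Subtype.ext
    rfl
  let ψ : 𝒲.H1 →+ 𝒲t.H1 := QuotientAddGroup.map _ _ φ.Z1map hle
  have hinj : Function.Injective ψ := by
    rw [injective_iff_map_eq_zero]
    intro q
    induction q using QuotientAddGroup.induction_on with
    | H z =>
      intro hz
      have hz' : φ.Z1map z ∈ 𝒲t.d0.range := by
        have : ψ (QuotientAddGroup.mk z) = QuotientAddGroup.mk (φ.Z1map z) := rfl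
        rw [this] at hz
        exact (QuotientAddGroup.eq_zero_iff _).mp hz
      obtain ⟨a, ha⟩ := hz'
      refine (QuotientAddGroup.eq_zero_iff _).mpr ⟨(a.1, ⟨(a.2 : W), by rw [hWf]; exact a.2.2⟩), ?_⟩
      apply Subtype.ext
      have := congrArg (fun z : 𝒲t.Z1 => (z : (G → W) × (D → W) × W)) ha
      exact this
  exact ⟨Finite.of_injective ψ hinj, Nat.card_le_card_of_injective ψ hinj⟩

end Mono

end Fermat.Agent.GZ.Dev
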