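/-
GATE-Z (S15) / node (DEV) = GZ-DEV, file 5 (helper90): **induced markings on sub- and quotient
modules, the short exact sequence they form, and transport** (Mathlib only).

* `Marked.comap 𝒲 ι`  : the marking induced on a submodule `ι : W' ↪ W`
                        (`Wf' = ι⁻¹ Wf`, `X' = {x' | ι ∘ x' ∈ X}`);
* `Marked.map 𝒲 π`    : the marking induced on a quotient `π : W ↠ W''`
                        (`Wf'' = π(Wf)`, `X'' = π ∘ X`);
* `MarkedSES.ofExact`  : `0 → W' → W → W'' → 0` exact and equivariant gives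
                        `MarkedSES (𝒲.comap ι) 𝒲 (𝒲.map π)`;
* `MarkedSES.card_Wf`  : `#Wf = #Wf' * #Wf''`;
* `chi_of_subsingleton`: `χ = 1` on the zero module;
* `chi_le_of_bijective`: transport along an equivariant bijection (with `X''` possibly LARGER).
-/
import Mathlib
import Fermat.Agent.GZ.Dev.Ses

set_option autoImplicit false

namespace Fermat.Agent.GZ.Dev

variable {G : Type*} [Group G] {D I : Subgroup G}

section Induced

variable {W' W W'' : Type*} [AddCommGroup W'] [DistribMulAction G W']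
  [AddCommGroup W] [DistribMulAction G W] [AddCommGroup W''] [DistribMulAction G W'']

/-- the marking induced on a submodule. -/
def Marked.comap (𝒲 : Marked D I W) (ι : W' →+ W)
    (hι : ∀ (σ : G) (w : W'), ι (σ • w) = σ • ι w) (hinj : Function.Injective ι) :
    Marked D I W' where
  Wf := 𝒲.Wf.comap ι
  smul_mem_Wf τ hτ w hw := by
    rw [AddSubgroup.mem_comap] at hw ⊢
    rw [hι]
    exact 𝒲.smul_mem_Wf τ hτ _ hw
  smul_eq_of_mem_I τ hτ w hw := by
    rw [AddSubgroup.mem_comap] at hw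
    apply hinj
    rw [hι]
    exact 𝒲.smul_eq_of_mem_I τ hτ _ hw
  X := 𝒲.X.comap (ι.compLeft G)
  dCob_mem w := by
    rw [AddSubgroup.mem_comap]
    have h : (ι.compLeft G) (dCob G w) = dCob G (ι w) := by
      funext σ
      simp only [AddMonoidHom.compLeft_apply, Function.comp_apply, dCob_apply, map_sub, hι]
    rw [h]
    exact 𝒲.dCob_mem _

theorem Marked.mem_comap_Wf (𝒲 : Marked D I W) (ι : W' →+ W)
    (hι : ∀ (σ : G) (w : W'), ι (σ • w) = σ • ι w) (hinj : Function.Injective ι) (w' : W') :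
    w' ∈ (𝒲.comap ι hι hinj).Wf ↔ ι w' ∈ 𝒲.Wf := Iff.rfl

theorem Marked.mem_comap_X (𝒲 : Marked D I W) (ι : W' →+ W)
    (hι : ∀ (σ : G) (w : W'), ι (σ • w) = σ • ι w) (hinj : Function.Injective ι) (x' : G → W') :
    x' ∈ (𝒲.comap ι hι hinj).X ↔ (fun σ => ι (x' σ)) ∈ 𝒲.X := Iff.rfl

/-- the marking induced on a quotient. -/
def Marked.map (𝒲 : Marked D I W) (π : W →+ W'')
    (hπ : ∀ (σ : G) (w : W), π (σ • w) = σ • π w) (hsurj : Function.Surjective π) :
    Marked D I W'' where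
  Wf := 𝒲.Wf.map π
  smul_mem_Wf τ hτ w hw := by
    obtain ⟨v, hv, rfl⟩ := hw
    exact ⟨τ • v, 𝒲.smul_mem_Wf τ hτ v hv, hπ τ v⟩
  smul_eq_of_mem_I τ hτ w hw := by
    obtain ⟨v, hv, rfl⟩ := hw
    rw [← hπ, 𝒲.smul_eq_of_mem_I τ hτ v hv]
  X := 𝒲.X.map (π.compLeft G)
  dCob_mem w := by
    obtain ⟨v, rfl⟩ := hsurj w
    refine ⟨dCob G v, 𝒲.dCob_mem v, ?_⟩
    funext σ
    simp only [AddMonoidHom.compLeft_apply, Function.comp_apply, dCob_apply, map_sub, hπ]

theorem Marked.mem_map_Wf (𝒲 : Marked D I W) (π : W →+ W'')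
    (hπ : ∀ (σ : G) (w : W), π (σ • w) = σ • π w) (hsurj : Function.Surjective π) (w'' : W'') :
    w'' ∈ (𝒲.map π hπ hsurj).Wf ↔ ∃ w ∈ 𝒲.Wf, π w = w'' := Iff.rfl

theorem Marked.mem_map_X (𝒲 : Marked D I W) (π : W →+ W'')
    (hπ : ∀ (σ : G) (w : W), π (σ • w) = σ • π w) (hsurj : Function.Surjective π)
    (x'' : G → W'') :
    x'' ∈ (𝒲.map π hπ hsurj).X ↔ ∃ x ∈ 𝒲.X, (fun σ => π (x σ)) = x'' := Iff.rfl

/-- an exact equivariant sequence gives a short exact sequence of marked modules (with the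
induced markings on the two ends). -/
def MarkedSES.ofExact (𝒲 : Marked D I W) (ι : W' →+ W)
    (hι : ∀ (σ : G) (w : W'), ι (σ • w) = σ • ι w) (hinj : Function.Injective ι)
    (π : W →+ W'') (hπ : ∀ (σ : G) (w : W), π (σ • w) = σ • π w)
    (hsurj : Function.Surjective π) (hex : ∀ w : W, π w = 0 ↔ w ∈ Set.range ι) :
    MarkedSES (𝒲.comap ι hι hinj) 𝒲 (𝒲.map π hπ hsurj) where
  ι := ι
  π := π
  ι_smul := hι
  π_smul := hπ
  ι_injective := hinj
  π_surjective := hsurj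
  exact := hex
  mem_Wf' _ := Iff.rfl
  mem_Wf'' _ := Iff.rfl
  mem_X' _ := Iff.rfl
  map_X'' x hx := ⟨x, hx, rfl⟩

/-- `#Wf = #Wf' * #Wf''` along a short exact sequence of marked modules. -/
theorem MarkedSES.card_Wf {𝒲' : Marked D I W'} {𝒲 : Marked D I W} {𝒲'' : Marked D I W''}
    (S : MarkedSES 𝒲' 𝒲 𝒲'') :
    Nat.card 𝒲.Wf = Nat.card 𝒲'.Wf * Nat.card 𝒲''.Wf := by
  -- the restriction `Wf →+ Wf''` of `π`
  let p : 𝒲.Wf →+ 𝒲''.Wf :=
    { toFun := fun w => ⟨S.π (w : W), (S.mem_Wf'' _).mpr ⟨w, w.2, rfl⟩⟩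
      map_zero' := Subtype.ext (by simp)
      map_add' := fun a b => Subtype.ext (by simp) }
  have hp : Function.Surjective p := by
    rintro ⟨w'', hw''⟩
    obtain ⟨w, hw, hw'⟩ := (S.mem_Wf'' w'').mp hw''
    exact ⟨⟨w, hw⟩, Subtype.ext hw'⟩
  -- its kernel is `Wf'`
  let e : 𝒲'.Wf → p.ker := fun w' =>
    ⟨⟨S.ι (w' : W'), (S.mem_Wf' _).mp w'.2⟩, by
      rw [AddMonoidHom.mem_ker]
      exact Subtype.ext ((S.exact _).mpr ⟨_, rfl⟩)⟩
  have he : Function.Bijective e := by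
    constructor
    · intro a b hab
      have : S.ι (a : W') = S.ι (b : W') := congrArg (fun z : p.ker => ((z : 𝒲.Wf) : W)) hab
      exact Subtype.ext (S.ι_injective this)
    · rintro ⟨⟨w, hw⟩, hk⟩
      rw [AddMonoidHom.mem_ker] at hk
      have hπ : S.π w = 0 := congrArg (fun z : 𝒲''.Wf => (z : W'')) hk
      obtain ⟨w', rfl⟩ := (S.exact _).mp hπ
      exact ⟨⟨w', (S.mem_Wf' _).mpr hw⟩, rfl⟩
  have h1 : Nat.card p.ker * p.ker.index = Nat.card 𝒲.Wf := p.ker.card_mul_index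
  have h2 : p.ker.index = Nat.card p.range := AddSubgroup.index_ker p
  have h3 : Nat.card p.range = Nat.card 𝒲''.Wf := by
    rw [AddMonoidHom.range_eq_top.mpr hp]
    exact Nat.card_congr (AddSubgroup.topEquiv (G := 𝒲''.Wf)).toEquiv
  have h4 : Nat.card p.ker = Nat.card 𝒲'.Wf := (Nat.card_congr (Equiv.ofBijective e he)).symm
  rw [← h1, h2, h3, h4]

end Induced

section Zero

variable {W : Type*} [AddCommGroup W] [DistribMulAction G W]

theorem Marked.subsingleton_H1 [Subsingleton W] (𝒲 : Marked D I W) : Subsingleton 𝒲.H1 := by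
  haveI : Subsingleton 𝒲.Z1 :=
    ⟨fun a b => Subtype.ext (Subsingleton.elim _ _)⟩
  exact ⟨fun a b => by
    induction a using QuotientAddGroup.induction_on with
    | H a =>
      induction b using QuotientAddGroup.induction_on with
      | H b => rw [Subsingleton.elim a b]⟩

/-- `χ = 1` on the zero module. -/
theorem chi_of_subsingleton [Subsingleton W] (𝒲 : Marked D I W) : chi 𝒲 = 1 := by
  haveI := 𝒲.subsingleton_H1
  have h1 : Nat.card 𝒲.H1 = 1 := Nat.card_of_subsingleton 0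
  have h0 : Nat.card 𝒲.H0 = 1 := Nat.card_of_subsingleton 0
  unfold chi
  rw [h1, h0]
  norm_num

end Zero

section Transport

variable {W W'' : Type*} [AddCommGroup W] [DistribMulAction G W]
  [AddCommGroup W''] [DistribMulAction G W'']

/-- the trivial marking on `PUnit`. -/
def Marked.punit : Marked D I PUnit.{1} where
  Wf := ⊤
  smul_mem_Wf _ _ _ _ := trivial
  smul_eq_of_mem_I _ _ _ _ := rfl
  X := ⊤
  dCob_mem _ := trivial

/-- **transport along an equivariant bijection** `π : W ≃ W''` with `Wf'' = π(Wf)` and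
`X'' ⊇ π ∘ X`: `χ(𝒲) ≤ χ(𝒲'')`. -/
theorem chi_le_of_bijective (𝒲 : Marked D I W) (𝒲'' : Marked D I W'') (π : W →+ W'')
    (hπ : ∀ (σ : G) (w : W), π (σ • w) = σ • π w) (hbij : Function.Bijective π)
    (hWf : ∀ w'' : W'', w'' ∈ 𝒲''.Wf ↔ ∃ w ∈ 𝒲.Wf, π w = w'')
    (hX : ∀ x ∈ 𝒲.X, (fun σ => π (x σ)) ∈ 𝒲''.X) [Finite W] [Finite 𝒲''.H1] :
    Finite 𝒲.H1 ∧ chi 𝒲 ≤ chi 𝒲'' := by
  let S : MarkedSES (Marked.punit (G := G) (D := D) (I := I)) 𝒲 𝒲'' :=
    { ι := 0
      π := π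
      ι_smul := fun σ w => (smul_zero σ).symm
      π_smul := hπ
      ι_injective := fun a b _ => Subsingleton.elim a b
      π_surjective := hbij.2
      exact := fun w => by
        constructor
        · intro h
          refine ⟨PUnit.unit, ?_⟩
          have : π w = π 0 := by rw [h, map_zero]
          exact (hbij.1 this).symm
        · rintro ⟨a, rfl⟩
          exact map_zero π
      mem_Wf' := fun w' => ⟨fun _ => 𝒲.Wf.zero_mem, fun _ => trivial⟩
      mem_Wf'' := hWf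
      mem_X' := fun x' => ⟨fun _ => 𝒲.X.zero_mem, fun _ => trivial⟩
      map_X'' := hX }
  haveI : Finite (Marked.punit (G := G) (D := D) (I := I)).H1 :=
    @Finite.of_subsingleton _ (Marked.subsingleton_H1 _)
  obtain ⟨hfin, hle⟩ := S.chi_le_of_le (le_of_eq (chi_of_subsingleton _)) (le_refl (chi 𝒲''))
  exact ⟨hfin, by rwa [one_mul] at hle⟩

end Transport

end Fermat.Agent.GZ.Dev
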