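/-
GATE-Z (S15) / node (DEV) = GZ-DEV, file 6 (helper90): **dévissage along a flag of `G`-stable
subgroups** (Mathlib only).

* `StableSub G W`          : a `G`-stable additive subgroup `S.U` of `W`, with the induced
                             `DistribMulAction G ↥S.U` and `DistribMulAction G (W ⧸ S.U)` (instances);
* `Marked.restrict 𝒱 S`    : the induced marking on `↥S.U`;  `Marked.quot 𝒱 S` : on `W ⧸ S.U`;
* `Marked.piece 𝒱 T S`     : the induced marking on the subquotient `↥S.U ⧸ (T.sub S).U`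
                             (restrict to `S`, then push to the quotient by `T`);
* `stepSES 𝒱 T S (h : T.U ≤ S.U) : MarkedSES (𝒱.restrict T) (𝒱.restrict S) (𝒱.piece T S)`;
* `chi_le_prod_of_flag`    : for a flag `⊥ = F 0 ≤ F 1 ≤ … ≤ F n = ⊤` of stable subgroups and
                             bounds `χ(piece i) ≤ c i`:  `χ(𝒱) ≤ ∏_{i<n} c i`;
* `card_Wf_eq_prod_of_flag`: `#Wf(𝒱) = ∏_{i<n} #Wf(piece i)`.
-/
import Mathlib
import Fermat.Agent.GZ.Dev.Induced

set_option autoImplicit false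

namespace Fermat.Agent.GZ.Dev

/-- a `G`-stable additive subgroup of `W`. -/
structure StableSub (G : Type*) [Group G] (W : Type*) [AddCommGroup W] [DistribMulAction G W] where
  /-- the underlying additive subgroup. -/
  U : AddSubgroup W
  /-- stability. -/
  smul_mem : ∀ (σ : G), ∀ w ∈ U, σ • w ∈ U

variable {G : Type*} [Group G] {D I : Subgroup G}

namespace StableSub

variable {W : Type*} [AddCommGroup W] [DistribMulAction G W]

/-- the induced action on a stable subgroup. -/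
instance subAction (S : StableSub G W) : DistribMulAction G ↥S.U where
  smul σ u := ⟨σ • (u : W), S.smul_mem σ u u.2⟩
  one_smul u := Subtype.ext (one_smul G (u : W))
  mul_smul σ τ u := Subtype.ext (mul_smul σ τ (u : W))
  smul_zero σ := Subtype.ext (smul_zero σ)
  smul_add σ u v := Subtype.ext (smul_add σ (u : W) (v : W))

@[simp] theorem coe_smul (S : StableSub G W) (σ : G) (u : ↥S.U) :
    ((σ • u : ↥S.U) : W) = σ • (u : W) := rfl

/-- the endomorphism of `W ⧸ S.U` induced by `σ`. -/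
def quotSmul (S : StableSub G W) (σ : G) : W ⧸ S.U →+ W ⧸ S.U :=
  QuotientAddGroup.map S.U S.U (DistribMulAction.toAddMonoidHom W σ) (fun w hw => S.smul_mem σ w hw)

@[simp] theorem quotSmul_mk (S : StableSub G W) (σ : G) (w : W) :
    S.quotSmul σ (QuotientAddGroup.mk w) = QuotientAddGroup.mk (σ • w) := rfl

/-- the induced action on the quotient by a stable subgroup. -/
instance quotAction (S : StableSub G W) : DistribMulAction G (W ⧸ S.U) where
  smul σ q := S.quotSmul σ q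
  one_smul q := by
    induction q using QuotientAddGroup.induction_on with
    | H w =>
      change S.quotSmul 1 (QuotientAddGroup.mk w) = _
      rw [quotSmul_mk, one_smul]
  mul_smul σ τ q := by
    induction q using QuotientAddGroup.induction_on with
    | H w =>
      change S.quotSmul (σ * τ) (QuotientAddGroup.mk w) =
        S.quotSmul σ (S.quotSmul τ (QuotientAddGroup.mk w))
      rw [quotSmul_mk, quotSmul_mk, quotSmul_mk, mul_smul]
  smul_zero σ := map_zero (S.quotSmul σ)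
  smul_add σ a b := map_add (S.quotSmul σ) a b

@[simp] theorem smul_mk (S : StableSub G W) (σ : G) (w : W) :
    σ • (QuotientAddGroup.mk w : W ⧸ S.U) = QuotientAddGroup.mk (σ • w) := rfl

/-- `T` as a stable subgroup of (the module) `S`. -/
def sub (T S : StableSub G W) : StableSub G ↥S.U where
  U := T.U.addSubgroupOf S.U
  smul_mem σ w hw := by
    rw [AddSubgroup.mem_addSubgroupOf] at hw ⊢
    exact T.smul_mem σ _ hw

/-- the zero subgroup. -/
def bot : StableSub G W where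
  U := ⊥
  smul_mem σ w hw := by
    rw [AddSubgroup.mem_bot] at hw ⊢
    rw [hw, smul_zero]

/-- the whole module. -/
def top : StableSub G W where
  U := ⊤
  smul_mem _ _ _ := AddSubgroup.mem_top _

end StableSub

section Pieces

variable {W : Type*} [AddCommGroup W] [DistribMulAction G W]

/-- the induced marking on a stable subgroup. -/
def Marked.restrict (𝒱 : Marked D I W) (S : StableSub G W) : Marked D I ↥S.U :=
  𝒱.comap S.U.subtype (fun _ _ => rfl) Subtype.val_injective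

/-- the induced marking on the quotient by a stable subgroup. -/
def Marked.quot (𝒱 : Marked D I W) (S : StableSub G W) : Marked D I (W ⧸ S.U) :=
  𝒱.map (QuotientAddGroup.mk' S.U) (fun _ _ => rfl) (QuotientAddGroup.mk'_surjective S.U)

/-- the induced marking on the subquotient `S / T`. -/
def Marked.piece (𝒱 : Marked D I W) (T S : StableSub G W) :
    Marked D I (↥S.U ⧸ (T.sub S).U) :=
  (𝒱.restrict S).quot (T.sub S)

theorem Marked.mem_restrict_Wf (𝒱 : Marked D I W) (S : StableSub G W) (u : ↥S.U) :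
    u ∈ (𝒱.restrict S).Wf ↔ (u : W) ∈ 𝒱.Wf := Iff.rfl

theorem Marked.mem_restrict_X (𝒱 : Marked D I W) (S : StableSub G W) (x : G → ↥S.U) :
    x ∈ (𝒱.restrict S).X ↔ (fun σ => ((x σ : ↥S.U) : W)) ∈ 𝒱.X := Iff.rfl

theorem Marked.mem_piece_Wf (𝒱 : Marked D I W) (T S : StableSub G W)
    (q : ↥S.U ⧸ (T.sub S).U) :
    q ∈ (𝒱.piece T S).Wf ↔ ∃ u : ↥S.U, (u : W) ∈ 𝒱.Wf ∧ QuotientAddGroup.mk u = q := Iff.rfl

theorem Marked.mem_piece_X (𝒱 : Marked D I W) (T S : StableSub G W)
    (y : G → ↥S.U ⧸ (T.sub S).U) :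
    y ∈ (𝒱.piece T S).X ↔ ∃ x : G → ↥S.U, (fun σ => ((x σ : ↥S.U) : W)) ∈ 𝒱.X ∧
      (fun σ => (QuotientAddGroup.mk (x σ) : ↥S.U ⧸ (T.sub S).U)) = y := Iff.rfl

/-- the short exact sequence `0 → T → S → S/T → 0` of marked modules. -/
def stepSES (𝒱 : Marked D I W) (T S : StableSub G W) (h : T.U ≤ S.U) :
    MarkedSES (𝒱.restrict T) (𝒱.restrict S) (𝒱.piece T S) where
  ι := AddSubgroup.inclusion h
  π := QuotientAddGroup.mk' (T.sub S).U
  ι_smul _ _ := rfl
  π_smul _ _ := rfl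
  ι_injective := AddSubgroup.inclusion_injective h
  π_surjective := QuotientAddGroup.mk'_surjective _
  exact w := by
    rw [QuotientAddGroup.mk'_apply, QuotientAddGroup.eq_zero_iff]
    constructor
    · intro hw
      exact ⟨⟨(w : W), hw⟩, rfl⟩
    · rintro ⟨t, rfl⟩
      exact t.2
  mem_Wf' _ := Iff.rfl
  mem_Wf'' _ := Iff.rfl
  mem_X' _ := Iff.rfl
  map_X'' x hx := ⟨x, hx, rfl⟩

/-- the short exact sequence `0 → S → W → W/S → 0` of marked modules. -/
def quotSES (𝒱 : Marked D I W) (S : StableSub G W) :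
    MarkedSES (𝒱.restrict S) 𝒱 (𝒱.quot S) :=
  MarkedSES.ofExact 𝒱 S.U.subtype (fun _ _ => rfl) Subtype.val_injective
    (QuotientAddGroup.mk' S.U) (fun _ _ => rfl) (QuotientAddGroup.mk'_surjective S.U)
    (fun w => by
      rw [QuotientAddGroup.mk'_apply, QuotientAddGroup.eq_zero_iff]
      constructor
      · intro hw
        exact ⟨⟨w, hw⟩, rfl⟩
      · rintro ⟨t, rfl⟩
        exact t.2)

/-- if `S = ⊤` then `χ(𝒱) ≤ χ(𝒱|S)`. -/
theorem chi_le_restrict_of_top (𝒱 : Marked D I W) (S : StableSub G W) (hS : S.U = ⊤)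
    [Finite W] [Finite (𝒱.restrict S).H1] :
    Finite 𝒱.H1 ∧ chi 𝒱 ≤ chi (𝒱.restrict S) := by
  have hsub : Subsingleton (W ⧸ S.U) := by
    rw [hS]
    exact QuotientAddGroup.subsingleton_quotient_top
  haveI : Finite (𝒱.quot S).H1 := @Finite.of_subsingleton _ (Marked.subsingleton_H1 _)
  obtain ⟨hfin, hle⟩ := (quotSES 𝒱 S).chi_le_of_le (le_refl _)
    (le_of_eq (chi_of_subsingleton (𝒱.quot S)))
  exact ⟨hfin, by rwa [mul_one] at hle⟩

/-- if `S = ⊤` then `#Wf(𝒱) = #Wf(𝒱|S)`. -/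
theorem card_Wf_restrict_of_top (𝒱 : Marked D I W) (S : StableSub G W) (hS : S.U = ⊤) :
    Nat.card 𝒱.Wf = Nat.card (𝒱.restrict S).Wf := by
  have hsub : Subsingleton (W ⧸ S.U) := by
    rw [hS]
    exact QuotientAddGroup.subsingleton_quotient_top
  have h := (quotSES 𝒱 S).card_Wf
  have h1 : Nat.card (𝒱.quot S).Wf = 1 := Nat.card_of_subsingleton 0
  rw [h, h1, mul_one]

end Pieces

section Flag

variable {W : Type*} [AddCommGroup W] [DistribMulAction G W]

/-- **dévissage along a flag**: `χ(𝒱|F i) ≤ ∏_{j<i} c j`. -/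
theorem chi_restrict_le_prod (𝒱 : Marked D I W) [Finite W] (n : ℕ) (F : ℕ → StableSub G W)
    (h0 : (F 0).U = ⊥) (hmono : ∀ i, i < n → (F i).U ≤ (F (i + 1)).U) (c : ℕ → ℚ)
    (hpiece : ∀ i, i < n → Finite (𝒱.piece (F i) (F (i + 1))).H1 ∧
      chi (𝒱.piece (F i) (F (i + 1))) ≤ c i) :
    ∀ i, i ≤ n → Finite (𝒱.restrict (F i)).H1 ∧
      chi (𝒱.restrict (F i)) ≤ ∏ j ∈ Finset.range i, c j := by
  intro i
  induction i with
  | zero =>
    intro _
    haveI : Subsingleton ↥(F 0).U := by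
      rw [h0]
      infer_instance
    refine ⟨@Finite.of_subsingleton _ (Marked.subsingleton_H1 _), ?_⟩
    rw [Finset.range_zero, Finset.prod_empty]
    exact le_of_eq (chi_of_subsingleton _)
  | succ i ih =>
    intro hi
    obtain ⟨hfin, hle⟩ := ih (Nat.le_of_succ_le hi)
    obtain ⟨hfin', hle'⟩ := hpiece i hi
    haveI := hfin
    haveI := hfin'
    have h := (stepSES 𝒱 (F i) (F (i + 1)) (hmono i hi)).chi_le_of_le hle hle'
    refine ⟨h.1, ?_⟩
    rw [Finset.prod_range_succ]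
    exact h.2

/-- **dévissage along a flag** `⊥ = F 0 ≤ … ≤ F n = ⊤`: `χ(𝒱) ≤ ∏_{i<n} c i` when
`χ(piece i) ≤ c i`. -/
theorem chi_le_prod_of_flag (𝒱 : Marked D I W) [Finite W] (n : ℕ) (F : ℕ → StableSub G W)
    (h0 : (F 0).U = ⊥) (hn : (F n).U = ⊤) (hmono : ∀ i, i < n → (F i).U ≤ (F (i + 1)).U)
    (c : ℕ → ℚ)
    (hpiece : ∀ i, i < n → Finite (𝒱.piece (F i) (F (i + 1))).H1 ∧
      chi (𝒱.piece (F i) (F (i + 1))) ≤ c i) :
    Finite 𝒱.H1 ∧ chi 𝒱 ≤ ∏ i ∈ Finset.range n, c i := by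
  obtain ⟨hfin, hle⟩ := chi_restrict_le_prod 𝒱 n F h0 hmono c hpiece n (le_refl n)
  haveI := hfin
  obtain ⟨hfin', hle'⟩ := chi_le_restrict_of_top 𝒱 (F n) hn
  exact ⟨hfin', le_trans hle' hle⟩

/-- `#Wf(𝒱|F i) = ∏_{j<i} #Wf(piece j)`. -/
theorem card_Wf_restrict_eq_prod (𝒱 : Marked D I W) (n : ℕ) (F : ℕ → StableSub G W)
    (h0 : (F 0).U = ⊥) (hmono : ∀ i, i < n → (F i).U ≤ (F (i + 1)).U) :
    ∀ i, i ≤ n → Nat.card (𝒱.restrict (F i)).Wf =
      ∏ j ∈ Finset.range i, Nat.card (𝒱.piece (F j) (F (j + 1))).Wf := by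
  intro i
  induction i with
  | zero =>
    intro _
    haveI : Subsingleton ↥(F 0).U := by
      rw [h0]
      infer_instance
    rw [Finset.range_zero, Finset.prod_empty]
    exact Nat.card_of_subsingleton 0
  | succ i ih =>
    intro hi
    rw [Finset.prod_range_succ, ← ih (Nat.le_of_succ_le hi)]
    exact (stepSES 𝒱 (F i) (F (i + 1)) (hmono i hi)).card_Wf

/-- **`#Wf(𝒱) = ∏_{i<n} #Wf(piece i)`** along a flag. -/
theorem card_Wf_eq_prod_of_flag (𝒱 : Marked D I W) (n : ℕ) (F : ℕ → StableSub G W)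
    (h0 : (F 0).U = ⊥) (hn : (F n).U = ⊤) (hmono : ∀ i, i < n → (F i).U ≤ (F (i + 1)).U) :
    Nat.card 𝒱.Wf = ∏ i ∈ Finset.range n, Nat.card (𝒱.piece (F i) (F (i + 1))).Wf := by
  rw [card_Wf_restrict_of_top 𝒱 (F n) hn]
  exact card_Wf_restrict_eq_prod 𝒱 n F h0 hmono n (le_refl n)

end Flag

end Fermat.Agent.GZ.Dev
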