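/-
GATE-Z (S15) / node (DEV) = GZ-DEV, file 4 (helper90): **the plain Selmer group is a quotient of
`H~¹`** when `Wf = W^I` (helper20 5806 R1: "for `V_k` itself plain Selmer `= H~¹`"; Mathlib only).

* `Marked.SelZ 𝒲` : the admissible cocycles `x ∈ X` whose restriction to `I` is a coboundary
                    (`∃ λ, ∀ τ ∈ I, x τ = τ • λ - λ`): "unramified at the level".
* `Marked.Sel 𝒲 := SelZ ⧸ {dCob w}` : the plain Selmer group.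
* `Marked.selMap : H1 𝒲 →+ Sel 𝒲`, `[(x, y, λ)] ↦ [x]` (needs only `I ≤ D`);
* `Marked.selMap_surjective` : surjective when `Wf = W^I` and `I` is normal in `D`;
* `Marked.card_sel_le` : `#Sel 𝒲 ≤ #H1 𝒲`.
-/
import Mathlib
import Fermat.Agent.GZ.Dev.Marked

set_option autoImplicit false

namespace Fermat.Agent.GZ.Dev

variable {G : Type*} [Group G] {D I : Subgroup G}
variable {W : Type*} [AddCommGroup W] [DistribMulAction G W]

namespace Marked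

/-- admissible cocycles whose restriction to `I` is a coboundary. -/
def SelZ (𝒲 : Marked D I W) : AddSubgroup (G → W) where
  carrier := {x | x ∈ 𝒲.X ∧ IsCocycle x ∧ ∃ l : W, ∀ τ ∈ I, x τ = τ • l - l}
  zero_mem' := ⟨𝒲.X.zero_mem, fun σ τ => by simp, 0, fun τ _ => by simp⟩
  add_mem' := by
    rintro a b ⟨ha1, ha2, la, hla⟩ ⟨hb1, hb2, lb, hlb⟩
    refine ⟨𝒲.X.add_mem ha1 hb1, fun σ τ => ?_, la + lb, fun τ hτ => ?_⟩
    · simp only [Pi.add_apply, ha2 σ τ, hb2 σ τ, smul_add]; abel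
    · simp only [Pi.add_apply, hla τ hτ, hlb τ hτ, smul_add]; abel
  neg_mem' := by
    rintro a ⟨ha1, ha2, la, hla⟩
    refine ⟨𝒲.X.neg_mem ha1, fun σ τ => ?_, -la, fun τ hτ => ?_⟩
    · simp only [Pi.neg_apply, ha2 σ τ, smul_neg]; abel
    · simp only [Pi.neg_apply, hla τ hτ, smul_neg]; abel

theorem mem_SelZ {𝒲 : Marked D I W} {x : G → W} :
    x ∈ 𝒲.SelZ ↔ x ∈ 𝒲.X ∧ IsCocycle x ∧ ∃ l : W, ∀ τ ∈ I, x τ = τ • l - l := Iff.rfl

theorem dCob_mem_SelZ (𝒲 : Marked D I W) (w : W) : dCob G w ∈ 𝒲.SelZ :=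
  ⟨𝒲.dCob_mem w, isCocycle_dCob w, w, fun _ _ => rfl⟩

/-- the coboundary map into `SelZ`. -/
def selD (𝒲 : Marked D I W) : W →+ 𝒲.SelZ where
  toFun w := ⟨dCob G w, 𝒲.dCob_mem_SelZ w⟩
  map_zero' := Subtype.ext dCob_zero
  map_add' a b := Subtype.ext (dCob_add a b)

/-- **the plain Selmer group** of the marked module. -/
abbrev Sel (𝒲 : Marked D I W) : Type _ := 𝒲.SelZ ⧸ 𝒲.selD.range

/-- the first component of a triple is a plain Selmer cocycle. -/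
theorem fst_mem_SelZ (𝒲 : Marked D I W) (hID : I ≤ D) {z : (G → W) × (D → W) × W}
    (hz : z ∈ 𝒲.Z1) : z.1 ∈ 𝒲.SelZ := by
  obtain ⟨h1, h2, -, -, h5, h6⟩ := hz
  refine ⟨h1, h2, z.2.2, fun τ hτ => ?_⟩
  have h := h6 ⟨τ, hID hτ⟩
  rw [h5 ⟨τ, hID hτ⟩ hτ, sub_zero] at h
  exact h

/-- `(x, y, λ) ↦ x`, `Z¹ →+ SelZ`. -/
def fstHom (𝒲 : Marked D I W) (hID : I ≤ D) : 𝒲.Z1 →+ 𝒲.SelZ where
  toFun z := ⟨(z : (G → W) × (D → W) × W).1, 𝒲.fst_mem_SelZ hID z.2⟩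
  map_zero' := rfl
  map_add' _ _ := rfl

theorem fstHom_d0 (𝒲 : Marked D I W) (hID : I ≤ D) (a : W × 𝒲.Wf) :
    𝒲.fstHom hID (𝒲.d0 a) = 𝒲.selD a.1 := rfl

/-- `[(x, y, λ)] ↦ [x]`, `H~¹ →+ Sel`. -/
def selMap (𝒲 : Marked D I W) (hID : I ≤ D) : 𝒲.H1 →+ 𝒲.Sel :=
  QuotientAddGroup.map _ _ (𝒲.fstHom hID) (by
    rintro z ⟨a, rfl⟩
    exact ⟨a.1, (𝒲.fstHom_d0 hID a).symm⟩)

/-- when `Wf = W^I` and `I` is normal in `D`, every plain Selmer cocycle completes to a triple. -/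
theorem exists_triple (𝒲 : Marked D I W) (hID : I ≤ D)
    (hnorm : ∀ σ ∈ D, ∀ τ ∈ I, σ * τ * σ⁻¹ ∈ I)
    (hfull : ∀ w : W, (∀ τ ∈ I, τ • w = w) → w ∈ 𝒲.Wf) {x : G → W} (hx : x ∈ 𝒲.SelZ) :
    ∃ z : 𝒲.Z1, (z : (G → W) × (D → W) × W).1 = x := by
  obtain ⟨hx1, hx2, l, hl⟩ := hx
  -- `y := x|_D - dCob l|_D`
  let y : D → W := fun τ => x τ - ((τ : G) • l - l)
  have hy0 : ∀ τ : D, (τ : G) ∈ I → y τ = 0 := fun τ hτ => by
    simp only [y, hl τ hτ, sub_self]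
  have hycoc : IsCocycleOn D y := by
    intro σ τ
    have h := hx2 (σ : G) (τ : G)
    simp only [y, Subgroup.coe_mul, mul_smul, smul_sub]
    rw [h]
    abel
  have hyfix : ∀ σ : D, ∀ τ' ∈ I, τ' • y σ = y σ := by
    intro σ τ' hτ'
    -- `τ' σ = σ τ` with `τ = σ⁻¹ τ' σ ∈ I`
    have hτ : (σ : G)⁻¹ * τ' * (σ : G) ∈ I := by
      have := hnorm (σ : G)⁻¹ (D.inv_mem σ.2) τ' hτ'
      rwa [inv_inv] at this
    let τD : D := ⟨(σ : G)⁻¹ * τ' * (σ : G), hID hτ⟩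
    let τ'D : D := ⟨τ', hID hτ'⟩
    have e1 : τ'D * σ = σ * τD := by
      apply Subtype.ext
      simp only [Subgroup.coe_mul, τ'D, τD]
      group
    have h1 := hycoc τ'D σ
    have h2 := hycoc σ τD
    rw [hy0 τ'D hτ', zero_add] at h1
    rw [hy0 τD hτ, smul_zero, add_zero] at h2
    rw [e1, h2] at h1
    exact h1.symm
  refine ⟨⟨(x, y, l), hx1, hx2, hycoc, fun τ => hfull _ (hyfix τ), hy0, fun τ => ?_⟩, rfl⟩
  simp only [y]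
  abel

theorem selMap_surjective (𝒲 : Marked D I W) (hID : I ≤ D)
    (hnorm : ∀ σ ∈ D, ∀ τ ∈ I, σ * τ * σ⁻¹ ∈ I)
    (hfull : ∀ w : W, (∀ τ ∈ I, τ • w = w) → w ∈ 𝒲.Wf) :
    Function.Surjective (𝒲.selMap hID) := by
  intro q
  induction q using QuotientAddGroup.induction_on with
  | H x =>
    obtain ⟨z, hz⟩ := 𝒲.exists_triple hID hnorm hfull x.2
    refine ⟨QuotientAddGroup.mk z, ?_⟩
    have : 𝒲.fstHom hID z = x := Subtype.ext hz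
    change QuotientAddGroup.mk (𝒲.fstHom hID z) = _
    rw [this]

/-- **`#Sel ≤ #H~¹`** when `Wf = W^I` (and `I` is a normal subgroup of `D`). -/
theorem card_sel_le (𝒲 : Marked D I W) (hID : I ≤ D)
    (hnorm : ∀ σ ∈ D, ∀ τ ∈ I, σ * τ * σ⁻¹ ∈ I)
    (hfull : ∀ w : W, (∀ τ ∈ I, τ • w = w) → w ∈ 𝒲.Wf) [Finite 𝒲.H1] :
    Finite 𝒲.Sel ∧ Nat.card 𝒲.Sel ≤ Nat.card 𝒲.H1 :=
  ⟨Finite.of_surjective _ (𝒲.selMap_surjective hID hnorm hfull),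
    Nat.card_le_card_of_surjective _ (𝒲.selMap_surjective hID hnorm hfull)⟩

end Marked

end Fermat.Agent.GZ.Dev
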