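/-
GATE-Z (S15) / node (DEV) = GZ-DEV, file 7 (helper90): **the universal bound for one piece (the
"TABLE" in one formula)** (Mathlib only).

For ANY marked module `𝒲` on a finite `P` (with `I ≤ D`):

  `#H~¹(𝒲) · #Wf · #P^G  ≤  #Sel(𝒲) · #P · #H~⁰(𝒲)`        (`Marked.card_H1_mul_le`)

where `Sel(𝒲)` is the PLAIN Selmer group of `Plain.lean` (admissible cocycles that are
coboundaries on `I`, modulo coboundaries).  So

  `χ(𝒲) ≤ t(𝒲) / #Wf`,   `t(𝒲) := #Sel(𝒲) · #P / #P^G`        (`Marked.chi_le_tab`).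

The four lines of the table are special cases:
* `P = ℤ/r` (trivial action, `P^G = P`), `Sel = 0` (no everywhere unramified character):
  `t = 1`, `χ ≤ 1/#Wf` (`1/r` for `Wf = P`, `1` for `Wf = 0`);
* `P = μ_r`, `#Sel ≤ #P^G` (`r` odd: both trivial; `r = 2`: both of order `2`):
  `t ≤ r`, `χ ≤ r/#Wf` (`1` for `Wf = P`, `r` for `Wf = 0`).
-/
import Mathlib
import Fermat.Agent.GZ.Dev.Plain
import Fermat.Agent.GZ.Dev.Ses

set_option autoImplicit false

namespace Fermat.Agent.GZ.Dev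

section Hom

variable {A B : Type*} [AddCommGroup A] [AddCommGroup B]

/-- `#A = #ker φ * #im φ`. -/
theorem card_eq_card_ker_mul_card_range (φ : A →+ B) :
    Nat.card A = Nat.card φ.ker * Nat.card φ.range := by
  have h1 : Nat.card φ.ker * φ.ker.index = Nat.card A := φ.ker.card_mul_index
  have h2 : φ.ker.index = Nat.card φ.range := AddSubgroup.index_ker φ
  rw [← h1, h2]

theorem card_le_card_of_addSubgroup_le {H K : AddSubgroup A} (h : H ≤ K) [Finite K] :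
    Nat.card H ≤ Nat.card K :=
  Nat.card_le_card_of_injective (AddSubgroup.inclusion h) (AddSubgroup.inclusion_injective h)

end Hom

variable {G : Type*} [Group G] {D I : Subgroup G}
variable {P : Type*} [AddCommGroup P] [DistribMulAction G P]

/-- the `G`-invariants of `P`. -/
def fixedPts (G : Type*) [Group G] (P : Type*) [AddCommGroup P] [DistribMulAction G P] :
    AddSubgroup P where
  carrier := {w | ∀ σ : G, σ • w = w}
  zero_mem' σ := smul_zero σ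
  add_mem' {a b} ha hb σ := by rw [smul_add, ha σ, hb σ]
  neg_mem' {a} ha σ := by rw [smul_neg, ha σ]

theorem mem_fixedPts {w : P} : w ∈ fixedPts G P ↔ ∀ σ : G, σ • w = w := Iff.rfl

namespace Marked

/-- the `λ` that can occur in a triple `(0, y, λ)`. -/
def Lam (𝒲 : Marked D I P) : AddSubgroup P where
  carrier := {l | (∀ τ ∈ I, τ • l = l) ∧ ∀ τ ∈ D, τ • l - l ∈ 𝒲.Wf}
  zero_mem' := ⟨fun τ _ => smul_zero τ, fun τ _ => by
    rw [smul_zero, sub_zero]; exact 𝒲.Wf.zero_mem⟩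
  add_mem' := by
    rintro a b ⟨ha1, ha2⟩ ⟨hb1, hb2⟩
    refine ⟨fun τ hτ => by rw [smul_add, ha1 τ hτ, hb1 τ hτ], fun τ hτ => ?_⟩
    have : τ • (a + b) - (a + b) = (τ • a - a) + (τ • b - b) := by rw [smul_add]; abel
    rw [this]
    exact 𝒲.Wf.add_mem (ha2 τ hτ) (hb2 τ hτ)
  neg_mem' := by
    rintro a ⟨ha1, ha2⟩
    refine ⟨fun τ hτ => by rw [smul_neg, ha1 τ hτ], fun τ hτ => ?_⟩
    have : τ • (-a) - (-a) = -(τ • a - a) := by rw [smul_neg]; abel
    rw [this]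
    exact 𝒲.Wf.neg_mem (ha2 τ hτ)

/-- the triple `(0, -dCob l |_D, l)`. -/
def lamFun (l : P) : (G → P) × (D → P) × P :=
  (0, fun τ : D => -((τ : G) • l - l), l)

theorem lamFun_mem (𝒲 : Marked D I P) {l : P} (hl : l ∈ 𝒲.Lam) : lamFun (D := D) l ∈ 𝒲.Z1 := by
  obtain ⟨h1, h2⟩ := hl
  refine ⟨𝒲.X.zero_mem, fun σ τ => by simp [lamFun], fun σ τ => ?_,
    fun τ => 𝒲.Wf.neg_mem (h2 τ τ.2),
    fun τ hτ => ?_, fun τ => ?_⟩
  · simp only [lamFun, Subgroup.coe_mul, mul_smul, smul_neg, smul_sub]; abel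
  · simp only [lamFun, h1 τ hτ, sub_self, neg_zero]
  · simp only [lamFun, Pi.zero_apply]; abel

/-- `l ↦ [(0, -dCob l, l)]`, `Lam →+ H~¹`. -/
def lamHom (𝒲 : Marked D I P) : 𝒲.Lam →+ 𝒲.H1 :=
  (QuotientAddGroup.mk' 𝒲.d0.range).comp
    { toFun := fun l => (⟨lamFun (l : P), 𝒲.lamFun_mem l.2⟩ : 𝒲.Z1)
      map_zero' := by
        apply Subtype.ext
        simp only [lamFun, AddSubgroup.coe_zero, smul_zero, sub_self, neg_zero]
        rfl
      map_add' := fun a b => by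
        apply Subtype.ext
        simp only [lamFun, AddSubgroup.coe_add, smul_add, Prod.mk_add_mk, add_zero]
        refine Prod.ext rfl (Prod.ext ?_ rfl)
        funext τ
        simp only [Pi.add_apply]
        abel }

theorem lamHom_apply (𝒲 : Marked D I P) (l : 𝒲.Lam) :
    𝒲.lamHom l = QuotientAddGroup.mk (⟨lamFun (l : P), 𝒲.lamFun_mem l.2⟩ : 𝒲.Z1) := rfl

/-- the kernel of `H~¹ → Sel` is in the image of `Lam`. -/
theorem ker_selMap_le (𝒲 : Marked D I P) (hID : I ≤ D) :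
    (𝒲.selMap hID).ker ≤ 𝒲.lamHom.range := by
  intro q hq
  induction q using QuotientAddGroup.induction_on with
  | H z =>
    rw [AddMonoidHom.mem_ker] at hq
    have hq' : (QuotientAddGroup.mk (𝒲.fstHom hID z) : 𝒲.Sel) = 0 := hq
    rw [QuotientAddGroup.eq_zero_iff] at hq'
    obtain ⟨w, hw⟩ := hq'
    have hx : dCob G w = (z : (G → P) × (D → P) × P).1 := congrArg Subtype.val hw
    obtain ⟨-, -, -, h4, h5, h6⟩ := z.2
    set l : P := (z : (G → P) × (D → P) × P).2.2 - w with hl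
    -- the second component of `z`
    have hy : ∀ τ : D, (z : (G → P) × (D → P) × P).2.1 τ = -((τ : G) • l - l) := by
      intro τ
      have h := h6 τ
      rw [← hx, dCob_apply] at h
      have : (z : (G → P) × (D → P) × P).2.1 τ =
          ((τ : G) • w - w) - ((τ : G) • (z : (G → P) × (D → P) × P).2.2 -
            (z : (G → P) × (D → P) × P).2.2) := by
        rw [← h]; abel
      rw [this, hl, smul_sub]; abel
    have hlmem : l ∈ 𝒲.Lam := by
      refine ⟨fun τ hτ => ?_, fun τ hτ => ?_⟩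
      · have h := hy ⟨τ, hID hτ⟩
        rw [h5 ⟨τ, hID hτ⟩ hτ] at h
        have h' : τ • l - l = 0 := by
          have := congrArg Neg.neg h
          simpa using this.symm
        exact sub_eq_zero.mp h'
      · have h := hy ⟨τ, hτ⟩
        have h' : τ • l - l = -((z : (G → P) × (D → P) × P).2.1 ⟨τ, hτ⟩) := by
          rw [h]; simp
        rw [h']
        exact 𝒲.Wf.neg_mem (h4 ⟨τ, hτ⟩)
    refine ⟨⟨l, hlmem⟩, ?_⟩
    rw [lamHom_apply]
    symm
    rw [QuotientAddGroup.eq]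
    refine ⟨(-w, 0), ?_⟩
    apply Subtype.ext
    simp only [d0_apply_coe, d0Fun, AddSubgroup.coe_zero, smul_zero, sub_self, sub_zero,
      AddSubgroup.coe_add, AddSubgroup.coe_neg, lamFun]
    refine Prod.ext ?_ (Prod.ext ?_ ?_)
    · funext σ
      simp only [Prod.fst_add, Prod.fst_neg, Pi.add_apply, Pi.neg_apply, Pi.zero_apply, add_zero,
        dCob_apply, smul_neg]
      rw [← hx, dCob_apply]
      abel
    · funext τ
      simp only [Prod.snd_add, Prod.fst_add, Prod.snd_neg, Prod.fst_neg, Pi.add_apply,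
        Pi.neg_apply]
      rw [hy τ]
      abel
    · simp only [Prod.snd_add, Prod.snd_neg]
      rw [hl]
      abel

/-- `(a, b) ↦ b - a`, `Wf × P^G →+ Lam`. -/
def diffHom (𝒲 : Marked D I P) : 𝒲.Wf × fixedPts G P →+ 𝒲.Lam where
  toFun a := ⟨(a.2 : P) - (a.1 : P), by
    refine ⟨fun τ hτ => ?_, fun τ hτ => ?_⟩
    · rw [smul_sub, a.2.2 τ, 𝒲.smul_eq_of_mem_I τ hτ _ a.1.2]
    · have : τ • ((a.2 : P) - (a.1 : P)) - ((a.2 : P) - (a.1 : P)) =
          -(τ • (a.1 : P) - (a.1 : P)) := by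
        rw [smul_sub, a.2.2 τ]; abel
      rw [this]
      exact 𝒲.Wf.neg_mem (𝒲.Wf.sub_mem (𝒲.smul_mem_Wf τ hτ _ a.1.2) a.1.2)⟩
  map_zero' := Subtype.ext (by simp)
  map_add' a b := Subtype.ext (by
    simp only [Prod.fst_add, Prod.snd_add, AddSubgroup.coe_add]; abel)

theorem range_diffHom_le (𝒲 : Marked D I P) : 𝒲.diffHom.range ≤ 𝒲.lamHom.ker := by
  rintro _ ⟨a, rfl⟩
  rw [AddMonoidHom.mem_ker, lamHom_apply, QuotientAddGroup.eq_zero_iff]
  refine ⟨((a.2 : P), a.1), ?_⟩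
  apply Subtype.ext
  simp only [d0_apply_coe, d0Fun, lamFun, diffHom, AddMonoidHom.coe_mk, ZeroHom.coe_mk]
  refine Prod.ext ?_ (Prod.ext ?_ rfl)
  · funext σ
    simp only [dCob_apply, Pi.zero_apply, a.2.2 σ, sub_self]
  · funext τ
    simp only [smul_sub, a.2.2 (τ : G)]
    abel

theorem card_ker_diffHom (𝒲 : Marked D I P) : Nat.card 𝒲.diffHom.ker = Nat.card 𝒲.H0 := by
  let e : 𝒲.diffHom.ker → 𝒲.H0 := fun a =>
    ⟨((a : 𝒲.Wf × fixedPts G P).1 : P), by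
      have h := a.2
      rw [AddMonoidHom.mem_ker] at h
      have h' : (((a : 𝒲.Wf × fixedPts G P).2 : P)) - ((a : 𝒲.Wf × fixedPts G P).1 : P) = 0 :=
        congrArg Subtype.val h
      refine ⟨(a : 𝒲.Wf × fixedPts G P).1.2, fun σ => ?_⟩
      rw [← sub_eq_zero.mp h']
      exact (a : 𝒲.Wf × fixedPts G P).2.2 σ⟩
  have he : Function.Bijective e := by
    constructor
    · intro a b hab
      have h1 : ((a : 𝒲.Wf × fixedPts G P).1 : P) = ((b : 𝒲.Wf × fixedPts G P).1 : P) :=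
        congrArg (fun z : 𝒲.H0 => (z : P)) hab
      have ha : (((a : 𝒲.Wf × fixedPts G P).2 : P)) - ((a : 𝒲.Wf × fixedPts G P).1 : P) = 0 :=
        congrArg Subtype.val (AddMonoidHom.mem_ker.mp a.2)
      have hb : (((b : 𝒲.Wf × fixedPts G P).2 : P)) - ((b : 𝒲.Wf × fixedPts G P).1 : P) = 0 :=
        congrArg Subtype.val (AddMonoidHom.mem_ker.mp b.2)
      apply Subtype.ext
      refine Prod.ext (Subtype.ext h1) (Subtype.ext ?_)
      rw [sub_eq_zero.mp ha, sub_eq_zero.mp hb, h1]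
    · rintro ⟨w, hw1, hw2⟩
      refine ⟨⟨(⟨w, hw1⟩, ⟨w, hw2⟩), ?_⟩, rfl⟩
      rw [AddMonoidHom.mem_ker]
      exact Subtype.ext (sub_self w)
  exact Nat.card_congr (Equiv.ofBijective e he)

/-- **the universal bound for one piece**:
`#H~¹ · #Wf · #P^G ≤ #Sel · #P · #H~⁰`. -/
theorem card_H1_mul_le (𝒲 : Marked D I P) (hID : I ≤ D) [Finite P] [Finite 𝒲.Sel] :
    Finite 𝒲.H1 ∧
      Nat.card 𝒲.H1 * Nat.card 𝒲.Wf * Nat.card (fixedPts G P) ≤
        Nat.card 𝒲.Sel * Nat.card P * Nat.card 𝒲.H0 := by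
  haveI : Finite 𝒲.Lam := Finite.of_injective (fun l : 𝒲.Lam => (l : P)) Subtype.val_injective
  haveI : Finite 𝒲.lamHom.range :=
    Finite.of_surjective 𝒲.lamHom.rangeRestrict 𝒲.lamHom.rangeRestrict_surjective
  haveI : Finite (𝒲.selMap hID).ker :=
    Finite.of_injective (AddSubgroup.inclusion (𝒲.ker_selMap_le hID))
      (AddSubgroup.inclusion_injective _)
  haveI : Finite (𝒲.selMap hID).range :=
    Finite.of_injective (fun x : (𝒲.selMap hID).range => (x : 𝒲.Sel)) Subtype.val_injective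
  haveI hfin : Finite 𝒲.H1 :=
    (AddMonoidHom.finite_iff_finite_ker_range (𝒲.selMap hID)).mpr ⟨inferInstance, inferInstance⟩
  refine ⟨hfin, ?_⟩
  -- the counts
  have e1 : Nat.card 𝒲.H1 = Nat.card (𝒲.selMap hID).ker * Nat.card (𝒲.selMap hID).range :=
    card_eq_card_ker_mul_card_range _
  have e2 : Nat.card (𝒲.selMap hID).range ≤ Nat.card 𝒲.Sel :=
    Nat.card_le_card_of_injective (fun x : (𝒲.selMap hID).range => (x : 𝒲.Sel))
      Subtype.val_injective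
  have e3 : Nat.card (𝒲.selMap hID).ker ≤ Nat.card 𝒲.lamHom.range :=
    card_le_card_of_addSubgroup_le (𝒲.ker_selMap_le hID)
  have e4 : Nat.card 𝒲.Lam = Nat.card 𝒲.lamHom.ker * Nat.card 𝒲.lamHom.range :=
    card_eq_card_ker_mul_card_range _
  have e5 : Nat.card 𝒲.diffHom.range ≤ Nat.card 𝒲.lamHom.ker :=
    card_le_card_of_addSubgroup_le 𝒲.range_diffHom_le
  have e6 : Nat.card (𝒲.Wf × fixedPts G P) =
      Nat.card 𝒲.diffHom.ker * Nat.card 𝒲.diffHom.range :=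
    card_eq_card_ker_mul_card_range _
  rw [Nat.card_prod, 𝒲.card_ker_diffHom] at e6
  have e7 : Nat.card 𝒲.Lam ≤ Nat.card P :=
    Nat.card_le_card_of_injective (fun l : 𝒲.Lam => (l : P)) Subtype.val_injective
  calc Nat.card 𝒲.H1 * Nat.card 𝒲.Wf * Nat.card (fixedPts G P)
      = Nat.card 𝒲.H1 * (Nat.card 𝒲.Wf * Nat.card (fixedPts G P)) := by ring
    _ = (Nat.card (𝒲.selMap hID).ker * Nat.card (𝒲.selMap hID).range) *
          (Nat.card 𝒲.H0 * Nat.card 𝒲.diffHom.range) := by rw [e1, e6]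
    _ ≤ (Nat.card 𝒲.lamHom.range * Nat.card 𝒲.Sel) *
          (Nat.card 𝒲.H0 * Nat.card 𝒲.lamHom.ker) :=
        Nat.mul_le_mul (Nat.mul_le_mul e3 e2) (Nat.mul_le_mul_left _ e5)
    _ = Nat.card 𝒲.Sel * (Nat.card 𝒲.lamHom.ker * Nat.card 𝒲.lamHom.range) * Nat.card 𝒲.H0 := by
        ring
    _ = Nat.card 𝒲.Sel * Nat.card 𝒲.Lam * Nat.card 𝒲.H0 := by rw [← e4]
    _ ≤ Nat.card 𝒲.Sel * Nat.card P * Nat.card 𝒲.H0 :=
        Nat.mul_le_mul_right _ (Nat.mul_le_mul_left _ e7)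

/-- the local factor `t(𝒲) = #Sel(𝒲) · #P / #P^G` of a piece. -/
noncomputable def tab (𝒲 : Marked D I P) : ℚ :=
  (Nat.card 𝒲.Sel : ℚ) * (Nat.card P : ℚ) / (Nat.card (fixedPts G P) : ℚ)

theorem tab_nonneg (𝒲 : Marked D I P) : 0 ≤ 𝒲.tab :=
  div_nonneg (mul_nonneg (Nat.cast_nonneg _) (Nat.cast_nonneg _)) (Nat.cast_nonneg _)

/-- **`χ(𝒲) ≤ t(𝒲) / #Wf`.** -/
theorem chi_le_tab (𝒲 : Marked D I P) (hID : I ≤ D) [Finite P] [Finite 𝒲.Sel] :
    Finite 𝒲.H1 ∧ chi 𝒲 ≤ 𝒲.tab / (Nat.card 𝒲.Wf : ℚ) := by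
  obtain ⟨hfin, h⟩ := 𝒲.card_H1_mul_le hID
  refine ⟨hfin, ?_⟩
  have p0 : (0 : ℚ) < Nat.card 𝒲.H0 := by exact_mod_cast (Nat.card_pos : 0 < Nat.card 𝒲.H0)
  have pf : (0 : ℚ) < Nat.card 𝒲.Wf := by exact_mod_cast (Nat.card_pos : 0 < Nat.card 𝒲.Wf)
  have pg : (0 : ℚ) < Nat.card (fixedPts G P) := by
    exact_mod_cast (Nat.card_pos : 0 < Nat.card (fixedPts G P))
  have hq : (Nat.card 𝒲.H1 : ℚ) * Nat.card 𝒲.Wf * Nat.card (fixedPts G P) ≤
      (Nat.card 𝒲.Sel : ℚ) * Nat.card P * Nat.card 𝒲.H0 := by exact_mod_cast h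
  unfold chi tab
  rw [div_div, div_le_div_iff₀ p0 (mul_pos pg pf)]
  calc (Nat.card 𝒲.H1 : ℚ) * ((Nat.card (fixedPts G P) : ℚ) * Nat.card 𝒲.Wf)
      = (Nat.card 𝒲.H1 : ℚ) * Nat.card 𝒲.Wf * Nat.card (fixedPts G P) := by ring
    _ ≤ (Nat.card 𝒲.Sel : ℚ) * Nat.card P * Nat.card 𝒲.H0 := hq

end Marked

end Fermat.Agent.GZ.Dev
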