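/-
GATE-Z (S15) / node (DEV) = GZ-DEV, file 8 (helper90): **the count** = flag dévissage + the
universal piece bound (Mathlib only).

For a marked module `𝒱` on a finite `W` (with `I ≤ D`) and a flag `⊥ = F 0 ≤ … ≤ F n = ⊤` of
`G`-stable subgroups whose pieces `𝒫 i := 𝒱.piece (F i) (F (i+1))` have finite plain Selmer groups:

  `#H~¹(𝒱) · #Wf(𝒱) ≤ #H~⁰(𝒱) · ∏_{i<n} t(𝒫 i)`,   `t(𝒫) = #Sel(𝒫) · #P / #P^G`

(`Marked.card_H1_mul_card_Wf_le_of_flag`).  With `t(𝒫 i) ≤ 1` on the étale pieces and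
`t(𝒫 i) ≤ r` on the multiplicative ones this is
`h~¹ ≤ h~⁰ + #{multiplicative pieces} - ℓ(Wf)` (`Marked.card_H1_mul_card_Wf_le_pow`).
-/
import Mathlib
import Fermat.Agent.GZ.Dev.Flag
import Fermat.Agent.GZ.Dev.Table

set_option autoImplicit false

namespace Fermat.Agent.GZ.Dev

variable {G : Type*} [Group G] {D I : Subgroup G}

namespace Marked

section Tab

variable {P : Type*} [AddCommGroup P] [DistribMulAction G P]

/-- étale line of the table: trivial action and no admissible class unramified at the level. -/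
theorem tab_eq_one_of_trivial (𝒲 : Marked D I P) [Finite P] (htriv : ∀ (σ : G) (w : P), σ • w = w)
    [Subsingleton 𝒲.Sel] : 𝒲.tab = 1 := by
  have h1 : Nat.card 𝒲.Sel = 1 := Nat.card_of_subsingleton 0
  have h2 : Nat.card (fixedPts G P) = Nat.card P := by
    have : fixedPts G P = ⊤ := by
      ext w
      simp only [mem_fixedPts, AddSubgroup.mem_top, iff_true]
      exact fun σ => htriv σ w
    rw [this]
    exact Nat.card_congr (AddSubgroup.topEquiv (G := P)).toEquiv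
  have p : (0 : ℚ) < Nat.card P := by exact_mod_cast (Nat.card_pos : 0 < Nat.card P)
  unfold tab
  rw [h1, h2, Nat.cast_one, one_mul, div_self (ne_of_gt p)]

/-- multiplicative line of the table: `#Sel ≤ #P^G` gives `t ≤ #P`. -/
theorem tab_le_card (𝒲 : Marked D I P) [Finite P]
    (h : Nat.card 𝒲.Sel ≤ Nat.card (fixedPts G P)) : 𝒲.tab ≤ (Nat.card P : ℚ) := by
  have pg : (0 : ℚ) < Nat.card (fixedPts G P) := by
    exact_mod_cast (Nat.card_pos : 0 < Nat.card (fixedPts G P))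
  have hq : (Nat.card 𝒲.Sel : ℚ) ≤ Nat.card (fixedPts G P) := by exact_mod_cast h
  unfold tab
  rw [div_le_iff₀ pg, mul_comm (Nat.card 𝒲.Sel : ℚ)]
  exact mul_le_mul_of_nonneg_left hq (Nat.cast_nonneg _)

end Tab

section Flag

variable {W : Type*} [AddCommGroup W] [DistribMulAction G W]

/-- **the count, `χ`-form**: `χ(𝒱) ≤ (∏ t(piece i)) / #Wf(𝒱)`. -/
theorem chi_le_prod_tab_of_flag (𝒱 : Marked D I W) (hID : I ≤ D) [Finite W] (n : ℕ)
    (F : ℕ → StableSub G W) (h0 : (F 0).U = ⊥) (hn : (F n).U = ⊤)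
    (hmono : ∀ i, i < n → (F i).U ≤ (F (i + 1)).U)
    (hSel : ∀ i, i < n → Finite (𝒱.piece (F i) (F (i + 1))).Sel) :
    Finite 𝒱.H1 ∧
      chi 𝒱 ≤ (∏ i ∈ Finset.range n, (𝒱.piece (F i) (F (i + 1))).tab) /
        (Nat.card 𝒱.Wf : ℚ) := by
  have hpiece : ∀ i, i < n → Finite (𝒱.piece (F i) (F (i + 1))).H1 ∧
      chi (𝒱.piece (F i) (F (i + 1))) ≤
        (𝒱.piece (F i) (F (i + 1))).tab / (Nat.card (𝒱.piece (F i) (F (i + 1))).Wf : ℚ) := by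
    intro i hi
    haveI := hSel i hi
    exact (𝒱.piece (F i) (F (i + 1))).chi_le_tab hID
  obtain ⟨hfin, hle⟩ := chi_le_prod_of_flag 𝒱 n F h0 hn hmono _ hpiece
  refine ⟨hfin, ?_⟩
  rw [Finset.prod_div_distrib] at hle
  rw [card_Wf_eq_prod_of_flag 𝒱 n F h0 hn hmono, Nat.cast_prod]
  exact hle

/-- **the count**: `#H~¹(𝒱) · #Wf(𝒱) ≤ #H~⁰(𝒱) · ∏ t(piece i)`. -/
theorem card_H1_mul_card_Wf_le_of_flag (𝒱 : Marked D I W) (hID : I ≤ D) [Finite W] (n : ℕ)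
    (F : ℕ → StableSub G W) (h0 : (F 0).U = ⊥) (hn : (F n).U = ⊤)
    (hmono : ∀ i, i < n → (F i).U ≤ (F (i + 1)).U)
    (hSel : ∀ i, i < n → Finite (𝒱.piece (F i) (F (i + 1))).Sel) :
    Finite 𝒱.H1 ∧
      (Nat.card 𝒱.H1 : ℚ) * (Nat.card 𝒱.Wf : ℚ) ≤
        (Nat.card 𝒱.H0 : ℚ) * ∏ i ∈ Finset.range n, (𝒱.piece (F i) (F (i + 1))).tab := by
  obtain ⟨hfin, hle⟩ := 𝒱.chi_le_prod_tab_of_flag hID n F h0 hn hmono hSel
  refine ⟨hfin, ?_⟩
  have p0 : (0 : ℚ) < Nat.card 𝒱.H0 := by exact_mod_cast (Nat.card_pos : 0 < Nat.card 𝒱.H0)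
  have pf : (0 : ℚ) < Nat.card 𝒱.Wf := by exact_mod_cast (Nat.card_pos : 0 < Nat.card 𝒱.Wf)
  unfold chi at hle
  rw [div_le_div_iff₀ p0 pf] at hle
  calc (Nat.card 𝒱.H1 : ℚ) * (Nat.card 𝒱.Wf : ℚ)
      ≤ (∏ i ∈ Finset.range n, (𝒱.piece (F i) (F (i + 1))).tab) * (Nat.card 𝒱.H0 : ℚ) := hle
    _ = (Nat.card 𝒱.H0 : ℚ) * ∏ i ∈ Finset.range n, (𝒱.piece (F i) (F (i + 1))).tab :=
        mul_comm _ _

/-- **the count with a bound on the local factors**: if `t(piece i) ≤ t i` then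
`#H~¹(𝒱) · #Wf(𝒱) ≤ #H~⁰(𝒱) · ∏ t i`. -/
theorem card_H1_mul_card_Wf_le_prod (𝒱 : Marked D I W) (hID : I ≤ D) [Finite W] (n : ℕ)
    (F : ℕ → StableSub G W) (h0 : (F 0).U = ⊥) (hn : (F n).U = ⊤)
    (hmono : ∀ i, i < n → (F i).U ≤ (F (i + 1)).U)
    (hSel : ∀ i, i < n → Finite (𝒱.piece (F i) (F (i + 1))).Sel) (t : ℕ → ℚ)
    (ht : ∀ i, i < n → (𝒱.piece (F i) (F (i + 1))).tab ≤ t i) :
    Finite 𝒱.H1 ∧
      (Nat.card 𝒱.H1 : ℚ) * (Nat.card 𝒱.Wf : ℚ) ≤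
        (Nat.card 𝒱.H0 : ℚ) * ∏ i ∈ Finset.range n, t i := by
  obtain ⟨hfin, hle⟩ := 𝒱.card_H1_mul_card_Wf_le_of_flag hID n F h0 hn hmono hSel
  refine ⟨hfin, le_trans hle ?_⟩
  apply mul_le_mul_of_nonneg_left _ (Nat.cast_nonneg _)
  apply Finset.prod_le_prod
  · intro i _
    exact tab_nonneg _
  · intro i hi
    exact ht i (Finset.mem_range.mp hi)

/-- **the count in the form used by (SB)**: `μ : ℕ → Prop` marks the multiplicative pieces;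
`t(piece i) ≤ 1` off `μ`, `t(piece i) ≤ r` on `μ`. Then
`#H~¹(𝒱) · #Wf(𝒱) ≤ #H~⁰(𝒱) · r ^ #{i < n | μ i}`. -/
theorem card_H1_mul_card_Wf_le_pow (𝒱 : Marked D I W) (hID : I ≤ D) [Finite W] (n : ℕ)
    (F : ℕ → StableSub G W) (h0 : (F 0).U = ⊥) (hn : (F n).U = ⊤)
    (hmono : ∀ i, i < n → (F i).U ≤ (F (i + 1)).U)
    (hSel : ∀ i, i < n → Finite (𝒱.piece (F i) (F (i + 1))).Sel) (r : ℕ)
    (μ : ℕ → Prop) [DecidablePred μ]
    (het : ∀ i, i < n → ¬ μ i → (𝒱.piece (F i) (F (i + 1))).tab ≤ 1)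
    (hmu : ∀ i, i < n → μ i → (𝒱.piece (F i) (F (i + 1))).tab ≤ r) :
    Finite 𝒱.H1 ∧
      Nat.card 𝒱.H1 * Nat.card 𝒱.Wf ≤
        Nat.card 𝒱.H0 * r ^ ((Finset.range n).filter μ).card := by
  obtain ⟨hfin, hle⟩ := 𝒱.card_H1_mul_card_Wf_le_prod hID n F h0 hn hmono hSel
    (fun i => if μ i then (r : ℚ) else 1)
    (fun i hi => by
      by_cases h : μ i
      · rw [if_pos h]; exact hmu i hi h
      · rw [if_neg h]; exact het i hi h)
  refine ⟨hfin, ?_⟩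
  rw [Finset.prod_ite, Finset.prod_const, Finset.prod_const_one, mul_one] at hle
  exact_mod_cast hle

end Flag

end Marked

end Fermat.Agent.GZ.Dev
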