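/-
GATE-Z (S15) / node (DEV) = GZ-DEV, file 9 (helper90): **the real place in the count, uniformly in
`r`** (helper20 6010 R4; Mathlib only).

`c : G` an involution ("complex conjugation"), `onePlus c = 1 + c : W →+ W`.

* `pieceSub K T S`   : the image in the piece `S/T` of `K ∩ S`, for ANY subgroup `K ≤ W`
                       (`(𝒱.piece T S).Wf = pieceSub 𝒱.Wf T S` by `rfl`);
* `card_eq_prod_pieceSub_of_flag` : `#K = ∏_{i<n} #(pieceSub K (F i) (F (i+1)))` along a flag
                       (REAL-COUNT (iii) of 6010 is the case `K = ker (1 + c)`);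
* `realX c`          : the cochains with `x c + c • x c = 0` (contains all cocycles when `c² = 1`);
                       if `𝒱.X ≤ realX c` then every `y ∈ (𝒱.piece T S).X` has
                       `y c ∈ N := pieceSub (ker (1 + c)) T S`   (`piece_X_apply_mem`);
* `Marked.tab_le_card_of_eval` : a piece with trivial action whose plain Selmer cocycles are
                       detected by their value at `c`: `t(𝒫) ≤ #N`   (all four `r = 2` lines, and the
                       `ℤ/r` lines for odd `r` with `N = 0`);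
* `pieceSub_ker_eq_top` : `c = -1` on the piece, `2` invertible: `N = ⊤` (the `μ_r` lines, `r` odd);
* `Marked.sb_count`  : if `t(piece i) ≤ #N_i` for all `i` then
                       `#H~¹(𝒱) · #Wf(𝒱) · #((1 + c) W) ≤ #H~⁰(𝒱) · #W`;
* `Marked.sb_bound`  : with (UNIP) `#W ≤ #Wf ^ 2` and (NUM**) `#W ≤ r ^ C · #((1 + c) W) ^ 2`:
                       `#H~¹(𝒱) ^ 2 ≤ #H~⁰(𝒱) ^ 2 · r ^ C`.
-/
import Mathlib
import Fermat.Agent.GZ.Dev.Count

set_option autoImplicit false

namespace Fermat.Agent.GZ.Dev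

variable {G : Type*} [Group G] {D I : Subgroup G}
variable {W : Type*} [AddCommGroup W] [DistribMulAction G W]

/-- the image of `K ∩ S` in the piece `S / T`. -/
def pieceSub (K : AddSubgroup W) (T S : StableSub G W) : AddSubgroup (↥S.U ⧸ (T.sub S).U) :=
  (K.comap S.U.subtype).map (QuotientAddGroup.mk' (T.sub S).U)

theorem mem_pieceSub (K : AddSubgroup W) (T S : StableSub G W) (q : ↥S.U ⧸ (T.sub S).U) :
    q ∈ pieceSub K T S ↔ ∃ u : ↥S.U, (u : W) ∈ K ∧ QuotientAddGroup.mk u = q := Iff.rfl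

theorem Marked.piece_Wf (𝒱 : Marked D I W) (T S : StableSub G W) :
    (𝒱.piece T S).Wf = pieceSub 𝒱.Wf T S := rfl

/-- the auxiliary marking with `Wf := K` (relative to the trivial subgroups). -/
def auxMarked (K : AddSubgroup W) : Marked (⊥ : Subgroup G) (⊥ : Subgroup G) W where
  Wf := K
  smul_mem_Wf τ hτ w hw := by
    rw [Subgroup.mem_bot] at hτ
    rw [hτ, one_smul]; exact hw
  smul_eq_of_mem_I τ hτ w _ := by
    rw [Subgroup.mem_bot] at hτ
    rw [hτ, one_smul]
  X := ⊤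
  dCob_mem _ := trivial

/-- **`#K = ∏ #(image of K ∩ F (i+1) in the piece i)`** along a flag. -/
theorem card_eq_prod_pieceSub_of_flag (K : AddSubgroup W) (n : ℕ) (F : ℕ → StableSub G W)
    (h0 : (F 0).U = ⊥) (hn : (F n).U = ⊤) (hmono : ∀ i, i < n → (F i).U ≤ (F (i + 1)).U) :
    Nat.card K = ∏ i ∈ Finset.range n, Nat.card (pieceSub K (F i) (F (i + 1))) :=
  card_Wf_eq_prod_of_flag (auxMarked (G := G) K) n F h0 hn hmono

/-- `1 + c`. -/
def onePlus (c : G) : W →+ W := AddMonoidHom.id W + DistribMulAction.toAddMonoidHom W c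

@[simp] theorem onePlus_apply (c : G) (w : W) : onePlus c w = w + c • w := rfl

theorem mem_ker_onePlus (c : G) (w : W) : w ∈ (onePlus c : W →+ W).ker ↔ w + c • w = 0 := Iff.rfl

/-- the cochains satisfying the cocycle condition at the involution `c`. -/
def realX (c : G) : AddSubgroup (G → W) where
  carrier := {x | x c + c • x c = 0}
  zero_mem' := by simp
  add_mem' {a b} ha hb := by
    have ha' : a c + c • a c = 0 := ha
    have hb' : b c + c • b c = 0 := hb
    change (a + b) c + c • (a + b) c = 0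
    rw [Pi.add_apply, smul_add]
    calc a c + b c + (c • a c + c • b c) = (a c + c • a c) + (b c + c • b c) := by abel
      _ = 0 := by rw [ha', hb', add_zero]
  neg_mem' {a} ha := by
    have ha' : a c + c • a c = 0 := ha
    change (-a) c + c • (-a) c = 0
    rw [Pi.neg_apply, smul_neg, ← neg_add, ha', neg_zero]

theorem mem_realX (c : G) (x : G → W) : x ∈ realX c ↔ x c + c • x c = 0 := Iff.rfl

theorem dCob_mem_realX {c : G} (hc : c * c = 1) (w : W) : dCob G w ∈ realX c := by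
  rw [mem_realX, dCob_apply, smul_sub, ← mul_smul, hc, one_smul]
  abel

/-- a cocycle satisfies the condition at `c`. -/
theorem mem_realX_of_isCocycle {c : G} (hc : c * c = 1) {x : G → W} (hx : IsCocycle x) :
    x ∈ realX c := by
  have h1 : x 1 = 0 := by
    have := hx 1 1
    rw [one_mul, one_smul] at this
    have h' : x 1 + x 1 = x 1 + 0 := by rw [add_zero]; exact this.symm
    exact add_left_cancel h'
  have := hx c c
  rw [hc, h1] at this
  exact this.symm

/-- if `𝒱.X` satisfies the real condition then the admissible cochains of a piece take at `c` a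
value in `N = pieceSub (ker (1 + c))`. -/
theorem piece_X_apply_mem (𝒱 : Marked D I W) (c : G) (hX : 𝒱.X ≤ realX c) (T S : StableSub G W)
    {y : G → ↥S.U ⧸ (T.sub S).U} (hy : y ∈ (𝒱.piece T S).X) :
    y c ∈ pieceSub (onePlus c : W →+ W).ker T S := by
  obtain ⟨x, hx, rfl⟩ := (𝒱.mem_piece_X T S y).mp hy
  exact ⟨x c, hX hx, rfl⟩

namespace Marked

section Piece

variable {P : Type*} [AddCommGroup P] [DistribMulAction G P]

/-- **a piece with trivial action whose plain Selmer cocycles are detected at `c`**: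
`t(𝒲) ≤ #N`. -/
theorem tab_le_card_of_eval (𝒲 : Marked D I P) [Finite P]
    (htriv : ∀ (σ : G) (w : P), σ • w = w) (c : G) (N : AddSubgroup P)
    (hN : ∀ x ∈ 𝒲.SelZ, x c ∈ N) (hinj : ∀ x ∈ 𝒲.SelZ, x c = 0 → x = 0) :
    𝒲.tab ≤ (Nat.card N : ℚ) := by
  -- evaluation at `c`, `SelZ →+ N`
  let ev : 𝒲.SelZ →+ N :=
    { toFun := fun x => ⟨(x : G → P) c, hN x x.2⟩
      map_zero' := rfl
      map_add' := fun _ _ => rfl }
  have hevinj : Function.Injective ev := by
    rw [injective_iff_map_eq_zero]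
    intro x hx
    have : (x : G → P) c = 0 := congrArg Subtype.val hx
    exact Subtype.ext (hinj x x.2 this)
  -- the coboundaries vanish
  have hbot : 𝒲.selD.range = ⊥ := by
    rw [eq_bot_iff]
    rintro _ ⟨w, rfl⟩
    rw [AddSubgroup.mem_bot]
    apply Subtype.ext
    funext σ
    change dCob G w σ = 0
    rw [dCob_apply, htriv σ w, sub_self]
  have hcard : Nat.card 𝒲.Sel ≤ Nat.card N := by
    have h1 : Nat.card 𝒲.Sel = Nat.card 𝒲.SelZ := by
      change Nat.card (𝒲.SelZ ⧸ 𝒲.selD.range) = _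
      rw [hbot]
      exact Nat.card_congr (QuotientAddGroup.quotientBot (G := 𝒲.SelZ)).toEquiv
    rw [h1]
    exact Nat.card_le_card_of_injective ev hevinj
  have h2 : Nat.card (fixedPts G P) = Nat.card P := by
    have : fixedPts G P = ⊤ := by
      ext w
      simp only [mem_fixedPts, AddSubgroup.mem_top, iff_true]
      exact fun σ => htriv σ w
    rw [this]
    exact Nat.card_congr (AddSubgroup.topEquiv (G := P)).toEquiv
  have p : (0 : ℚ) < Nat.card P := by exact_mod_cast (Nat.card_pos : 0 < Nat.card P)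
  unfold tab
  rw [h2, mul_div_assoc, div_self (ne_of_gt p), mul_one]
  exact_mod_cast hcard

end Piece

end Marked

/-- if `c` acts by `-1` on the piece `S/T` and `2` is invertible there, then
`N = pieceSub (ker (1 + c)) T S` is everything. -/
theorem pieceSub_ker_eq_top (c : G) (hc : c * c = 1) (T S : StableSub G W)
    (hneg : ∀ q : ↥S.U ⧸ (T.sub S).U, c • q = -q)
    (h2 : ∀ q : ↥S.U ⧸ (T.sub S).U, ∃ q', q' + q' = q) :
    pieceSub (onePlus c : W →+ W).ker T S = ⊤ := by
  rw [eq_top_iff]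
  intro q _
  obtain ⟨q', rfl⟩ := h2 q
  induction q' using QuotientAddGroup.induction_on with
  | H u =>
    -- `u - c u ∈ ker (1 + c)` maps to `2 [u]`
    refine ⟨u - c • u, ?_, ?_⟩
    · change ((u : W) - c • (u : W)) + c • ((u : W) - c • (u : W)) = 0
      rw [smul_sub, ← mul_smul, hc, one_smul]
      abel
    · have h := hneg (QuotientAddGroup.mk u)
      change (QuotientAddGroup.mk u : ↥S.U ⧸ (T.sub S).U) -
          c • (QuotientAddGroup.mk u : ↥S.U ⧸ (T.sub S).U) = _
      rw [h, sub_neg_eq_add]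

namespace Marked

section SB

/-- **the count with the real place**: if `t(piece i) ≤ #N_i`, `N_i` the image of
`ker (1 + c) ∩ F (i+1)` in the piece `i`, then
`#H~¹(𝒱) · #Wf(𝒱) · #((1 + c) W) ≤ #H~⁰(𝒱) · #W`. -/
theorem sb_count (𝒱 : Marked D I W) (hID : I ≤ D) [Finite W] (c : G) (n : ℕ)
    (F : ℕ → StableSub G W) (h0 : (F 0).U = ⊥) (hn : (F n).U = ⊤)
    (hmono : ∀ i, i < n → (F i).U ≤ (F (i + 1)).U)
    (hSel : ∀ i, i < n → Finite (𝒱.piece (F i) (F (i + 1))).Sel)
    (hT : ∀ i, i < n → (𝒱.piece (F i) (F (i + 1))).tab ≤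
      (Nat.card (pieceSub (onePlus c : W →+ W).ker (F i) (F (i + 1))) : ℚ)) :
    Finite 𝒱.H1 ∧
      Nat.card 𝒱.H1 * Nat.card 𝒱.Wf * Nat.card (onePlus c : W →+ W).range ≤
        Nat.card 𝒱.H0 * Nat.card W := by
  obtain ⟨hfin, hle⟩ := 𝒱.card_H1_mul_card_Wf_le_prod hID n F h0 hn hmono hSel
    (fun i => (Nat.card (pieceSub (onePlus c : W →+ W).ker (F i) (F (i + 1))) : ℚ)) hT
  refine ⟨hfin, ?_⟩
  rw [← Nat.cast_prod, ← card_eq_prod_pieceSub_of_flag _ n F h0 hn hmono] at hle
  have hle' : Nat.card 𝒱.H1 * Nat.card 𝒱.Wf ≤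
      Nat.card 𝒱.H0 * Nat.card (onePlus c : W →+ W).ker := by exact_mod_cast hle
  have hW : Nat.card W =
      Nat.card (onePlus c : W →+ W).ker * Nat.card (onePlus c : W →+ W).range :=
    card_eq_card_ker_mul_card_range _
  calc Nat.card 𝒱.H1 * Nat.card 𝒱.Wf * Nat.card (onePlus c : W →+ W).range
      ≤ Nat.card 𝒱.H0 * Nat.card (onePlus c : W →+ W).ker *
          Nat.card (onePlus c : W →+ W).range := Nat.mul_le_mul_right _ hle'
    _ = Nat.card 𝒱.H0 * Nat.card W := by rw [hW]; ring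

/-- **(SB)**: with (UNIP) `#W ≤ #Wf ^ 2` and (NUM**) `#W ≤ r ^ C * #((1 + c) W) ^ 2`:
`#H~¹(𝒱) ^ 2 ≤ #H~⁰(𝒱) ^ 2 * r ^ C`. -/
theorem sb_bound (𝒱 : Marked D I W) (hID : I ≤ D) [Finite W] (c : G) (n : ℕ)
    (F : ℕ → StableSub G W) (h0 : (F 0).U = ⊥) (hn : (F n).U = ⊤)
    (hmono : ∀ i, i < n → (F i).U ≤ (F (i + 1)).U)
    (hSel : ∀ i, i < n → Finite (𝒱.piece (F i) (F (i + 1))).Sel)
    (hT : ∀ i, i < n → (𝒱.piece (F i) (F (i + 1))).tab ≤
      (Nat.card (pieceSub (onePlus c : W →+ W).ker (F i) (F (i + 1))) : ℚ))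
    (r C : ℕ) (hunip : Nat.card W ≤ Nat.card 𝒱.Wf ^ 2)
    (hnum : Nat.card W ≤ r ^ C * Nat.card (onePlus c : W →+ W).range ^ 2) :
    Finite 𝒱.H1 ∧ Nat.card 𝒱.H1 ^ 2 ≤ Nat.card 𝒱.H0 ^ 2 * r ^ C := by
  obtain ⟨hfin, hle⟩ := 𝒱.sb_count hID c n F h0 hn hmono hSel hT
  refine ⟨hfin, ?_⟩
  set h := Nat.card 𝒱.H1
  set f := Nat.card 𝒱.Wf with hf
  set a := Nat.card (onePlus c : W →+ W).range with ha
  set z := Nat.card 𝒱.H0
  set v := Nat.card W
  have pf : 0 < f := Nat.card_pos
  have pa : 0 < a := Nat.card_pos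
  have hvv : v * v ≤ f ^ 2 * (r ^ C * a ^ 2) := Nat.mul_le_mul hunip hnum
  have key : h ^ 2 * (f ^ 2 * a ^ 2) ≤ (z ^ 2 * r ^ C) * (f ^ 2 * a ^ 2) := by
    calc h ^ 2 * (f ^ 2 * a ^ 2) = (h * f * a) ^ 2 := by ring
      _ ≤ (z * v) ^ 2 := Nat.pow_le_pow_left hle 2
      _ = z ^ 2 * (v * v) := by ring
      _ ≤ z ^ 2 * (f ^ 2 * (r ^ C * a ^ 2)) := Nat.mul_le_mul_left _ hvv
      _ = (z ^ 2 * r ^ C) * (f ^ 2 * a ^ 2) := by ring
  exact Nat.le_of_mul_le_mul_right key (Nat.mul_pos (Nat.pow_pos pf) (Nat.pow_pos pa))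

end SB

end Marked

end Fermat.Agent.GZ.Dev
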